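/-
T14 / SI-FT, abstract part: the "ambiguous class" count for a cyclic group of prime order acting
on an exact sequence `0 → E → L → I`, and the resulting properness of the norm image.
Pure group theory, Mathlib only.
-/
import Mathlib

set_option autoImplicit false

namespace Fermat.Agent.S14.SI.FT

open AddSubgroup

section Basic

variable {G : Type*} [AddCommGroup G]

/-- If `N ≤ H` then `[B + N : H ∩ (B + N)] = [B : H ∩ B]`. -/
lemma relIndex_sup_of_le {H N : AddSubgroup G} (hN : N ≤ H) (B : AddSubgroup G) :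
    H.relIndex (B ⊔ N) = H.relIndex B := by
  have hH : H = (H.map (QuotientAddGroup.mk' N)).comap (QuotientAddGroup.mk' N) := by
    rw [AddSubgroup.comap_map_eq, QuotientAddGroup.ker_mk', sup_of_le_left hN]
  have hmap : (B ⊔ N).map (QuotientAddGroup.mk' N) = B.map (QuotientAddGroup.mk' N) := by
    rw [AddSubgroup.map_sup]
    have : N.map (QuotientAddGroup.mk' N) = ⊥ := by
      rw [eq_bot_iff]
      rintro _ ⟨x, hx, rfl⟩
      simpa using hx
    rw [this, sup_bot_eq]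
  rw [hH, AddSubgroup.relIndex_comap, AddSubgroup.relIndex_comap, hmap]

/-- For a homomorphism `f` and subgroups `A, B` of the source:
`[f B : f A ∩ f B] = [B : (A + ker f) ∩ B]`. -/
lemma relIndex_map_map_eq {G' : Type*} [AddCommGroup G'] (f : G →+ G') (A B : AddSubgroup G) :
    (A.map f).relIndex (B.map f) = (A ⊔ f.ker).relIndex B := by
  rw [AddSubgroup.relIndex_map_map]
  exact relIndex_sup_of_le le_sup_right B

/-- the norm endomorphism `1 + σ + ⋯ + σ^(p-1)` -/
def nrm (p : ℕ) (σ : AddMonoid.End G) : G →+ G :=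
  (∑ i ∈ Finset.range p, σ ^ i : AddMonoid.End G)

/-- the endomorphism `σ - 1` -/
def dlt (σ : AddMonoid.End G) : G →+ G := (σ - 1 : AddMonoid.End G)

lemma dlt_apply (σ : AddMonoid.End G) (x : G) : dlt σ x = σ x - x := rfl

lemma end_sum_apply (s : Finset ℕ) (f : ℕ → AddMonoid.End G) (x : G) :
    (∑ i ∈ s, f i) x = ∑ i ∈ s, (f i) x := by
  induction s using Finset.induction_on with
  | empty => simp
  | insert a s ha ih =>
    rw [Finset.sum_insert ha, Finset.sum_insert ha, ← ih]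
    rfl

lemma nrm_apply (p : ℕ) (σ : AddMonoid.End G) (x : G) :
    nrm p σ x = ∑ i ∈ Finset.range p, (σ ^ i) x :=
  end_sum_apply _ _ x

lemma nrm_dlt {p : ℕ} {σ : AddMonoid.End G} (hσ : σ ^ p = 1) (x : G) : nrm p σ (dlt σ x) = 0 := by
  have h : (∑ i ∈ Finset.range p, σ ^ i) * (σ - 1) = 0 := by rw [geom_sum_mul, hσ, sub_self]
  exact congrArg (fun f : AddMonoid.End G => f x) h

lemma dlt_nrm {p : ℕ} {σ : AddMonoid.End G} (hσ : σ ^ p = 1) (x : G) : dlt σ (nrm p σ x) = 0 := by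
  have h : (σ - 1) * (∑ i ∈ Finset.range p, σ ^ i) = 0 := by rw [mul_geom_sum, hσ, sub_self]
  exact congrArg (fun f : AddMonoid.End G => f x) h

end Basic

section Ambiguous

variable {L I : Type*} [AddCommGroup L] [AddCommGroup I]
variable {p : ℕ} {σL : AddMonoid.End L} {σI : AddMonoid.End I} {d : L →+ I}

lemma d_dlt (hd : ∀ x, d (σL x) = σI (d x)) (x : L) : d (dlt σL x) = dlt σI (d x) := by
  simp [dlt_apply, hd]

lemma d_pow (hd : ∀ x, d (σL x) = σI (d x)) (i : ℕ) (x : L) : d ((σL ^ i) x) = (σI ^ i) (d x) := by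
  induction i generalizing x with
  | zero => simp
  | succ n ih =>
    rw [pow_succ, pow_succ]
    change d ((σL ^ n) (σL x)) = (σI ^ n) (σI (d x))
    rw [ih, hd]

lemma d_nrm (hd : ∀ x, d (σL x) = σI (d x)) (x : L) : d (nrm p σL x) = nrm p σI (d x) := by
  rw [nrm_apply, nrm_apply, map_sum]
  exact Finset.sum_congr rfl fun i _ => d_pow hd i x

/-- Hilbert 90 in the form `ker N = im (σ - 1)`. -/
lemma range_dlt_eq_ker_nrm (hσL : σL ^ p = 1)
    (h90 : ∀ z, nrm p σL z = 0 → ∃ t, z = dlt σL t) :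
    AddMonoidHom.range (dlt σL) = AddMonoidHom.ker (nrm p σL) := by
  ext z
  constructor
  · rintro ⟨t, rfl⟩
    exact nrm_dlt hσL t
  · intro hz
    obtain ⟨t, rfl⟩ := h90 z hz
    exact ⟨t, rfl⟩

/-- `[I^σ ∩ P : d(F)] = |H^1(E)|`. -/
lemma relIndex_fixed_principal (hσL : σL ^ p = 1) (hd : ∀ x, d (σL x) = σI (d x))
    (h90 : ∀ z, nrm p σL z = 0 → ∃ t, z = dlt σL t) :
    ((AddMonoidHom.ker (dlt σL)).map d).relIndex
        (AddMonoidHom.range d ⊓ AddMonoidHom.ker (dlt σI)) =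
      ((AddMonoidHom.ker d).map (dlt σL)).relIndex
        (AddMonoidHom.ker d ⊓ AddMonoidHom.ker (nrm p σL)) := by
  set E := AddMonoidHom.ker d with hE
  set F := AddMonoidHom.ker (dlt σL) with hF
  set L₁ := E.comap (dlt σL) with hL₁
  have h1 : AddMonoidHom.range d ⊓ AddMonoidHom.ker (dlt σI) = L₁.map d := by
    ext a
    constructor
    · rintro ⟨⟨z, rfl⟩, hz⟩
      refine ⟨z, ?_, rfl⟩
      change dlt σL z ∈ E
      rw [hE, AddMonoidHom.mem_ker, d_dlt hd]
      exact hz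
    · rintro ⟨z, hz, rfl⟩
      refine ⟨⟨z, rfl⟩, ?_⟩
      change dlt σL z ∈ E at hz
      rw [hE, AddMonoidHom.mem_ker, d_dlt hd] at hz
      exact hz
  have h2 : F ⊔ E = (E.map (dlt σL)).comap (dlt σL) := by
    rw [AddSubgroup.comap_map_eq, sup_comm]
  have h3 : L₁.map (dlt σL) = E ⊓ AddMonoidHom.ker (nrm p σL) := by
    rw [hL₁, AddSubgroup.map_comap_eq, range_dlt_eq_ker_nrm hσL h90, inf_comm]
  rw [h1, relIndex_map_map_eq, ← hE, h2, AddSubgroup.relIndex_comap, h3]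

/-- `[B : I^σ + P] ≤ [E_K ∩ N(L) : N(E)]` (injectivity half of the `H^1(P)` computation). -/
lemma relIndex_ambiguous_le (hσL : σL ^ p = 1) (hσI : σI ^ p = 1)
    (hd : ∀ x, d (σL x) = σI (d x))
    (h90 : ∀ z, nrm p σL z = 0 → ∃ t, z = dlt σL t)
    (hne : ((AddMonoidHom.ker d).map (nrm p σL)).relIndex
        (AddMonoidHom.ker d ⊓ AddMonoidHom.ker (dlt σL) ⊓ AddMonoidHom.range (nrm p σL)) ≠ 0) :
    (AddMonoidHom.ker (dlt σI) ⊔ AddMonoidHom.range d).relIndex
        ((AddMonoidHom.range d).comap (dlt σI)) ≤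
      ((AddMonoidHom.ker d).map (nrm p σL)).relIndex
        (AddMonoidHom.ker d ⊓ AddMonoidHom.ker (dlt σL) ⊓ AddMonoidHom.range (nrm p σL)) := by
  set E := AddMonoidHom.ker d with hE
  set P := AddMonoidHom.range d with hP
  set L₂ := (AddMonoidHom.range (dlt σI)).comap d with hL₂
  have s1 : AddMonoidHom.ker (dlt σI) ⊔ P = (P.map (dlt σI)).comap (dlt σI) := by
    rw [AddSubgroup.comap_map_eq, sup_comm]
  have s3 : (P.comap (dlt σI)).map (dlt σI) = AddMonoidHom.range (dlt σI) ⊓ P :=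
    AddSubgroup.map_comap_eq _ _
  have s4 : P.map (dlt σI) = (AddMonoidHom.range (dlt σL)).map d := by
    rw [hP, AddMonoidHom.map_range, AddMonoidHom.map_range]
    congr 1
    ext x
    exact (d_dlt hd x).symm
  have s5 : AddMonoidHom.range (dlt σI) ⊓ P = L₂.map d := by
    rw [hL₂, AddSubgroup.map_comap_eq, inf_comm]
  have s7 : AddMonoidHom.range (dlt σL) ⊔ E = (E.map (nrm p σL)).comap (nrm p σL) := by
    rw [AddSubgroup.comap_map_eq, range_dlt_eq_ker_nrm hσL h90, sup_comm]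
  have s9 : L₂.map (nrm p σL) ≤
      E ⊓ AddMonoidHom.ker (dlt σL) ⊓ AddMonoidHom.range (nrm p σL) := by
    rintro _ ⟨z, hz, rfl⟩
    obtain ⟨b, hb⟩ := hz
    refine ⟨⟨?_, ?_⟩, ⟨z, rfl⟩⟩
    · change d (nrm p σL z) = 0
      rw [d_nrm hd, ← hb]
      exact nrm_dlt hσI b
    · exact dlt_nrm hσL z
  rw [s1, AddSubgroup.relIndex_comap, s3, s4, s5, relIndex_map_map_eq, ← hE, s7,
    AddSubgroup.relIndex_comap]
  exact AddSubgroup.relIndex_le_of_le_right s9 hne

/-- For a finite class group: `|A/(σ-1)A| = |A^σ|`, in terms of subgroups of `I`. -/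
lemma index_coinvariants (hd : ∀ x, d (σL x) = σI (d x))
    (hfin : (AddMonoidHom.range d).index ≠ 0) :
    (AddMonoidHom.range (dlt σI) ⊔ AddMonoidHom.range d).index =
      (AddMonoidHom.range d).relIndex ((AddMonoidHom.range d).comap (dlt σI)) := by
  set P := AddMonoidHom.range d with hP
  set S := AddMonoidHom.range (dlt σI) ⊔ P with hS
  set B := P.comap (dlt σI) with hB
  have hPB : P ≤ B := by
    rintro _ ⟨z, rfl⟩
    exact ⟨dlt σL z, d_dlt hd z⟩
  have hPS : P ≤ S := le_sup_right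
  have e1 : P.relIndex B * B.index = P.index := AddSubgroup.relIndex_mul_index hPB
  have e2 : P.relIndex S * S.index = P.index := AddSubgroup.relIndex_mul_index hPS
  have e3 : B.index = P.relIndex S := by
    rw [hB, AddSubgroup.index_comap, hS, AddSubgroup.relIndex_sup_right]
  have hne : P.relIndex S ≠ 0 := by
    intro h
    rw [h, zero_mul] at e2
    exact hfin e2.symm
  rw [e3] at e1
  have : P.relIndex S * S.index = P.relIndex S * P.relIndex B := by
    rw [e2, mul_comm, e1]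
  exact Nat.eq_of_mul_eq_mul_left (Nat.pos_of_ne_zero hne) this

/-- **Abstract first inequality.**  `L` plays the role of `Nˣ`, `I` the divisor group of `N`, `d` the
divisor map, `σ` a generator of the Galois group (of prime order `p`), `J` the divisors coming from the
base field, `J'` those prime to the ramified set, `K''` the elements of the base field which are
`p`-th power residues at the ramified primes. -/
theorem not_le_norm_sup (hp : p.Prime) (r : ℕ)
    (hσL : σL ^ p = 1) (hσI : σI ^ p = 1) (hd : ∀ x, d (σL x) = σI (d x))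
    (h90 : ∀ z, nrm p σL z = 0 → ∃ t, z = dlt σL t)
    (hfin : (AddMonoidHom.range d).index ≠ 0)
    (hUH0 : ((AddMonoidHom.ker d).map (nrm p σL)).relIndex
        (AddMonoidHom.ker d ⊓ AddMonoidHom.ker (dlt σL)) ≠ 0)
    (hUH : ((AddMonoidHom.ker d).map (dlt σL)).relIndex
        (AddMonoidHom.ker d ⊓ AddMonoidHom.ker (nrm p σL)) =
      p * ((AddMonoidHom.ker d).map (nrm p σL)).relIndex
        (AddMonoidHom.ker d ⊓ AddMonoidHom.ker (dlt σL)))
    (J J' : AddSubgroup I) (K'' : AddSubgroup L)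
    (hJσ : J ≤ AddMonoidHom.ker (dlt σI))
    (hdF : (AddMonoidHom.ker (dlt σL)).map d ≤ J)
    (hJidx : J.relIndex (AddMonoidHom.ker (dlt σI)) ∣ p ^ r)
    (hJ' : J' ≤ J)
    (hR1 : J ≤ J' ⊔ (AddMonoidHom.ker (dlt σL)).map d)
    (hK'' : K'' ≤ AddMonoidHom.ker (dlt σL) ⊓ J'.comap d)
    (hK''idx : K''.relIndex (AddMonoidHom.ker (dlt σL) ⊓ J'.comap d) = p ^ r)
    (hR2 : ∀ z, d (nrm p σL z) ∈ J' → nrm p σL z ∈ K'') :
    ¬ J' ≤ K''.map d ⊔ AddMonoidHom.range (nrm p σI) := by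
  intro hle
  set E := AddMonoidHom.ker d with hE
  set F := AddMonoidHom.ker (dlt σL) with hF
  set P := AddMonoidHom.range d with hP
  set Iσ := AddMonoidHom.ker (dlt σI) with hIσ
  set B := P.comap (dlt σI) with hB
  set S := AddMonoidHom.range (dlt σI) ⊔ P with hS
  set NLr := AddMonoidHom.range (nrm p σL) with hNLr
  set NIr := AddMonoidHom.range (nrm p σI) with hNIr
  set K' := F ⊓ J'.comap d with hK'
  set T₀ := K''.map d with hT₀
  have hp0 : p ≠ 0 := hp.ne_zero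
  -- the unit indices
  have hEN : E.map (nrm p σL) ≤ E ⊓ F ⊓ NLr := by
    rintro _ ⟨ε, hε, rfl⟩
    refine ⟨⟨?_, dlt_nrm hσL ε⟩, ⟨ε, rfl⟩⟩
    change d (nrm p σL ε) = 0
    have hε0 : d ε = 0 := hε
    rw [d_nrm hd, hε0, map_zero]
  have hn : (E.map (nrm p σL)).relIndex (E ⊓ F ⊓ NLr) * (E ⊓ F ⊓ NLr).relIndex (E ⊓ F) =
      (E.map (nrm p σL)).relIndex (E ⊓ F) :=
    AddSubgroup.relIndex_mul_relIndex _ _ _ hEN inf_le_left
  set x := (E.map (nrm p σL)).relIndex (E ⊓ F) with hx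
  set n₂ := (E.map (nrm p σL)).relIndex (E ⊓ F ⊓ NLr) with hn₂
  set n₁ := (E ⊓ F ⊓ NLr).relIndex (E ⊓ F) with hn₁
  have hn₂0 : n₂ ≠ 0 := fun h => hUH0 (by rw [← hn, h, zero_mul])
  have hn₁0 : n₁ ≠ 0 := fun h => hUH0 (by rw [← hn, h, mul_zero])
  -- (1) the ambiguous class count
  have hPB : P ≤ B := by
    rintro _ ⟨z, rfl⟩
    exact ⟨dlt σL z, d_dlt hd z⟩
  have hIσB : Iσ ≤ B := by
    intro a ha
    have ha0 : dlt σI a = 0 := ha
    change dlt σI a ∈ P
    rw [ha0]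
    exact zero_mem _
  have ha : P.relIndex (Iσ ⊔ P) * (Iσ ⊔ P).relIndex B = P.relIndex B :=
    AddSubgroup.relIndex_mul_relIndex _ _ _ le_sup_right (sup_le hIσB hPB)
  have hb : P.relIndex (Iσ ⊔ P) = P.relIndex Iσ := AddSubgroup.relIndex_sup_right _ _
  have hdFP : F.map d ≤ P ⊓ Iσ := by
    rintro _ ⟨z, hz, rfl⟩
    refine ⟨⟨z, rfl⟩, ?_⟩
    have hz0 : dlt σL z = 0 := hz
    change dlt σI (d z) = 0
    rw [← d_dlt hd, hz0, map_zero]
  have hdd : (F.map d).relIndex (P ⊓ Iσ) * (P ⊓ Iσ).relIndex Iσ = (F.map d).relIndex Iσ :=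
    AddSubgroup.relIndex_mul_relIndex _ _ _ hdFP inf_le_right
  have he : (F.map d).relIndex J * J.relIndex Iσ = (F.map d).relIndex Iσ :=
    AddSubgroup.relIndex_mul_relIndex _ _ _ hdF hJσ
  have hy : (F.map d).relIndex (P ⊓ Iσ) = p * x := by
    rw [relIndex_fixed_principal hσL hd h90, hUH]
  have hc : (P ⊓ Iσ).relIndex Iσ = P.relIndex Iσ := AddSubgroup.inf_relIndex_right _ _
  set h := (F.map d).relIndex J with hh
  set j := J.relIndex Iσ with hj
  have key1 : p * x * P.relIndex Iσ = h * j := by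
    rw [← hy, ← hc, hdd, he]
  have hPI0 : P.relIndex Iσ ≠ 0 := by
    intro h0
    have := AddSubgroup.relIndex_dvd_index_of_normal P Iσ
    rw [h0, zero_dvd_iff] at this
    exact hfin this
  have hx0 : x ≠ 0 := hUH0
  have hhj0 : h * j ≠ 0 := by
    rw [← key1]
    exact mul_ne_zero (mul_ne_zero hp0 hx0) hPI0
  have hh0 : h ≠ 0 := left_ne_zero_of_mul hhj0
  have hj_le : j ≤ p ^ r := Nat.le_of_dvd (pow_pos hp.pos r) hJidx
  have hBle : (Iσ ⊔ P).relIndex B ≤ n₂ :=
    relIndex_ambiguous_le hσL hσI hd h90 hn₂0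
  set a := P.relIndex B with haa
  have key2 : a * p * n₁ ≤ h * p ^ r := by
    have h1 : a ≤ P.relIndex Iσ * n₂ := by
      rw [← ha, hb]
      exact Nat.mul_le_mul_left _ hBle
    have h2 : a * (p * x) ≤ h * j * n₂ := by
      calc a * (p * x) ≤ P.relIndex Iσ * n₂ * (p * x) := Nat.mul_le_mul_right _ h1
        _ = p * x * P.relIndex Iσ * n₂ := by ring
        _ = h * j * n₂ := by rw [key1]
    have h3 : a * p * n₁ * n₂ ≤ h * j * n₂ := by
      calc a * p * n₁ * n₂ = a * (p * (n₂ * n₁)) := by ring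
        _ = a * (p * x) := by rw [hn]
        _ ≤ h * j * n₂ := h2
    have h4 : a * p * n₁ ≤ h * j := Nat.le_of_mul_le_mul_right h3 (Nat.pos_of_ne_zero hn₂0)
    exact h4.trans (Nat.mul_le_mul_left _ hj_le)
  -- (2) the size of `C = J' / d(K'')`
  have hEJ' : E ≤ J'.comap d := by
    intro ε hε
    have hε0 : d ε = 0 := hε
    change d ε ∈ J'
    rw [hε0]
    exact zero_mem _
  have hK'map : K'.map d = F.map d ⊓ J' := by
    ext a
    constructor
    · rintro ⟨z, ⟨hz1, hz2⟩, rfl⟩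
      exact ⟨⟨z, hz1, rfl⟩, hz2⟩
    · rintro ⟨⟨z, hz, rfl⟩, hz2⟩
      exact ⟨z, ⟨hz, hz2⟩, rfl⟩
  have hT₀K' : T₀ ≤ K'.map d := AddSubgroup.map_mono hK''
  have hK'J' : K'.map d ≤ J' := by
    rw [hK'map]
    exact inf_le_right
  have hT₀J' : T₀ ≤ J' := hT₀K'.trans hK'J'
  have hc1 : T₀.relIndex (K'.map d) * (K'.map d).relIndex J' = T₀.relIndex J' :=
    AddSubgroup.relIndex_mul_relIndex _ _ _ hT₀K' hK'J'
  have hsupJ : J' ⊔ F.map d = J := le_antisymm (sup_le hJ' hdF) hR1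
  have hc2 : (K'.map d).relIndex J' = h := by
    rw [hK'map, AddSubgroup.inf_relIndex_right, ← AddSubgroup.relIndex_sup_right J' (F.map d),
      hsupJ]
  have hc3 : T₀.relIndex (K'.map d) = (K'' ⊔ E).relIndex K' := relIndex_map_map_eq d K'' K'
  have hEK' : E ⊓ K' = E ⊓ F := by
    rw [hK', ← inf_assoc]
    exact inf_eq_left.mpr (inf_le_left.trans hEJ')
  have hmod : (K'' ⊔ E) ⊓ K' = K'' ⊔ E ⊓ F := by
    rw [sup_inf_assoc_of_le E hK'', hEK']
  have hc4 : K''.relIndex ((K'' ⊔ E) ⊓ K') * (K'' ⊔ E).relIndex K' = K''.relIndex K' := by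
    rw [AddSubgroup.relIndex_inf_mul_relIndex, inf_eq_left.mpr le_sup_left]
  set m := K''.relIndex (E ⊓ F) with hm
  have hc5 : K''.relIndex ((K'' ⊔ E) ⊓ K') = m := by
    rw [hmod, AddSubgroup.relIndex_sup_left]
  set c := T₀.relIndex J' with hcc
  have key3 : c * m = p ^ r * h := by
    rw [← hc1, hc2, hc3, ← hK''idx, ← hc4, hc5]
    ring
  -- (3) `c ≤ a`
  have hPS : P ≤ S := le_sup_right
  have hS0 : S.index ≠ 0 := by
    intro h0
    have := AddSubgroup.index_dvd_of_le hPS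
    rw [h0, zero_dvd_iff] at this
    exact hfin this
  have hSa : S.index = a := index_coinvariants hd hfin
  have key4 : c ≤ a := by
    have hJ'eq : J' = T₀ ⊔ NIr ⊓ J' := by
      rw [← sup_inf_assoc_of_le NIr hT₀J']
      exact (inf_eq_right.mpr hle).symm
    have e1 : c = T₀.relIndex (NIr ⊓ J') := by
      rw [hcc]
      conv_lhs => rw [hJ'eq]
      exact AddSubgroup.relIndex_sup_left _ _
    have e2 : NIr ⊓ J' = (J'.comap (nrm p σI)).map (nrm p σI) :=
      (AddSubgroup.map_comap_eq _ _).symm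
    have e3 : T₀.relIndex (NIr ⊓ J') = (T₀.comap (nrm p σI)).relIndex (J'.comap (nrm p σI)) := by
      rw [e2, AddSubgroup.relIndex_comap]
    have hsub : S ⊓ J'.comap (nrm p σI) ≤ T₀.comap (nrm p σI) := by
      rintro a ⟨haS, haJ⟩
      obtain ⟨u, ⟨b, rfl⟩, w, ⟨z, rfl⟩, rfl⟩ := AddSubgroup.mem_sup.mp haS
      have hN : nrm p σI (dlt σI b + d z) = d (nrm p σL z) := by
        rw [map_add, nrm_dlt hσI, zero_add, d_nrm hd]
      change nrm p σI (dlt σI b + d z) ∈ J' at haJ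
      change nrm p σI (dlt σI b + d z) ∈ T₀
      rw [hN] at haJ ⊢
      exact ⟨_, hR2 z haJ, rfl⟩
    have hSrel : S.relIndex (J'.comap (nrm p σI)) ∣ S.index :=
      AddSubgroup.relIndex_dvd_index_of_normal _ _
    have hSrel0 : S.relIndex (J'.comap (nrm p σI)) ≠ 0 := by
      intro h0
      rw [h0, zero_dvd_iff] at hSrel
      exact hS0 hSrel
    have e4 : (T₀.comap (nrm p σI)).relIndex (J'.comap (nrm p σI)) ≤
        (S ⊓ J'.comap (nrm p σI)).relIndex (J'.comap (nrm p σI)) := by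
      refine AddSubgroup.relIndex_le_of_le_left hsub ?_
      rw [AddSubgroup.inf_relIndex_right]
      exact hSrel0
    rw [e1, e3]
    refine e4.trans ?_
    rw [AddSubgroup.inf_relIndex_right, ← hSa]
    exact Nat.le_of_dvd (Nat.pos_of_ne_zero hS0) hSrel
  -- (4) `m ≤ n₁`
  have key5 : m ≤ n₁ := by
    have hsub : E ⊓ F ⊓ NLr ≤ K'' := by
      rintro _ ⟨⟨hz1, -⟩, ⟨w, rfl⟩⟩
      refine hR2 w ?_
      have hz0 : d (nrm p σL w) = 0 := hz1
      rw [hz0]
      exact zero_mem _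
    exact AddSubgroup.relIndex_le_of_le_left hsub hn₁0
  -- conclusion
  have hfinal : p * (p ^ r * h) ≤ p ^ r * h := by
    calc p * (p ^ r * h) = p * (c * m) := by rw [key3]
      _ ≤ p * (a * n₁) := Nat.mul_le_mul_left _ (Nat.mul_le_mul key4 key5)
      _ = a * p * n₁ := by ring
      _ ≤ h * p ^ r := key2
      _ = p ^ r * h := by ring
  have hpos : 0 < p ^ r * h := Nat.mul_pos (pow_pos hp.pos r) (Nat.pos_of_ne_zero hh0)
  have : p ≤ 1 := by
    by_contra hcon
    have hcon2 : 2 ≤ p := by omega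
    have : 2 * (p ^ r * h) ≤ p * (p ^ r * h) := Nat.mul_le_mul_right _ hcon2
    omega
  exact absurd hp.two_le (by omega)

end Ambiguous

end Fermat.Agent.S14.SI.FT
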