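/-
T14 / SI-FT: the divisor map of a number field,
`dv F : Additive Fˣ →+ (HeightOneSpectrum (𝓞 F) →₀ ℤ)`, its kernel (units) and the finiteness of
its cokernel (class group).  Mathlib only.
-/
import Mathlib

set_option autoImplicit false

open NumberField IsDedekindDomain

namespace Fermat.Agent.S14.SI.FT

section Single

variable {F : Type*} [Field F] [NumberField F]

/-- the order of `x ∈ Fˣ` at the prime `v` -/
noncomputable def ordv (v : HeightOneSpectrum (𝓞 F)) (x : Fˣ) : ℤ :=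
  -(WithZero.log (v.valuation F (x : F)))

lemma valuation_ne_zero' (v : HeightOneSpectrum (𝓞 F)) (x : Fˣ) : v.valuation F (x : F) ≠ 0 :=
  (Valuation.ne_zero_iff _).mpr x.ne_zero

lemma valuation_eq_exp_neg_ordv (v : HeightOneSpectrum (𝓞 F)) (x : Fˣ) :
    v.valuation F (x : F) = WithZero.exp (-(ordv v x)) := by
  rw [ordv, neg_neg, WithZero.exp_log (valuation_ne_zero' v x)]

lemma ordv_eq_iff (v : HeightOneSpectrum (𝓞 F)) (x : Fˣ) (n : ℤ) :
    ordv v x = n ↔ v.valuation F (x : F) = WithZero.exp (-n) := by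
  constructor
  · rintro rfl
    exact valuation_eq_exp_neg_ordv v x
  · intro h
    rw [ordv, h, WithZero.log_exp, neg_neg]

lemma ordv_eq_zero_iff (v : HeightOneSpectrum (𝓞 F)) (x : Fˣ) :
    ordv v x = 0 ↔ v.valuation F (x : F) = 1 := by
  rw [ordv_eq_iff, neg_zero, WithZero.exp_zero]

lemma ordv_mul (v : HeightOneSpectrum (𝓞 F)) (x y : Fˣ) : ordv v (x * y) = ordv v x + ordv v y := by
  simp only [ordv, Units.val_mul, map_mul]
  rw [WithZero.log_mul (valuation_ne_zero' v x) (valuation_ne_zero' v y)]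
  ring

lemma ordv_one (v : HeightOneSpectrum (𝓞 F)) : ordv v (1 : Fˣ) = 0 := by
  simp [ordv]

lemma ordv_inv (v : HeightOneSpectrum (𝓞 F)) (x : Fˣ) : ordv v x⁻¹ = -ordv v x := by
  have := ordv_mul v x x⁻¹
  rw [mul_inv_cancel, ordv_one] at this
  linarith

lemma finite_ordv_ne_zero (x : Fˣ) : {v : HeightOneSpectrum (𝓞 F) | ordv v x ≠ 0}.Finite := by
  have h1 := HeightOneSpectrum.Support.finite (𝓞 F) (x : F)
  have h2 := HeightOneSpectrum.Support.finite (𝓞 F) ((x⁻¹ : Fˣ) : F)
  refine (h1.union h2).subset ?_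
  intro v hv
  simp only [Set.mem_ofPred_eq, ne_eq, ordv_eq_zero_iff] at hv
  rcases lt_or_gt_of_ne hv with h | h
  · right
    change 1 < v.valuation F ((x⁻¹ : Fˣ) : F)
    rw [Units.val_inv_eq_inv_val, map_inv₀]
    exact (one_lt_inv₀ (zero_lt_iff.mpr (valuation_ne_zero' v x))).mpr h
  · left
    exact h

/-- the divisor of `x ∈ Fˣ` -/
noncomputable def dvFun (x : Fˣ) : HeightOneSpectrum (𝓞 F) →₀ ℤ :=
  Finsupp.ofSupportFinite (fun v => ordv v x) (finite_ordv_ne_zero x)

@[simp] lemma dvFun_apply (x : Fˣ) (v : HeightOneSpectrum (𝓞 F)) : dvFun x v = ordv v x := rfl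

variable (F) in
/-- the divisor map, as an additive homomorphism -/
noncomputable def dv : Additive Fˣ →+ (HeightOneSpectrum (𝓞 F) →₀ ℤ) where
  toFun x := dvFun x.toMul
  map_zero' := by
    ext v
    simp [ordv_one]
  map_add' x y := by
    ext v
    simp [ordv_mul]

@[simp] lemma dv_apply (x : Additive Fˣ) (v : HeightOneSpectrum (𝓞 F)) :
    dv F x v = ordv v x.toMul := rfl

/-- link with Mathlib's `FractionalIdeal.count` -/
lemma ordv_eq_count (v : HeightOneSpectrum (𝓞 F)) (x : Fˣ) :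
    ordv v x = FractionalIdeal.count F v
      (FractionalIdeal.spanSingleton (nonZeroDivisors (𝓞 F)) (x : F)) := by
  obtain ⟨a, b, hb, hab⟩ := IsFractionRing.div_surjective (A := 𝓞 F) (x : F)
  have hb0 : b ≠ 0 := nonZeroDivisors.ne_zero hb
  have ha0 : a ≠ 0 := by
    rintro rfl
    rw [map_zero, zero_div] at hab
    exact x.ne_zero hab.symm
  have hbF : (algebraMap (𝓞 F) F b) ≠ 0 := by
    simpa using hb0
  have hspan : FractionalIdeal.spanSingleton (nonZeroDivisors (𝓞 F)) (x : F) =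
      (Ideal.span {a} : Ideal (𝓞 F)) *
        ((Ideal.span {b} : Ideal (𝓞 F)) : FractionalIdeal (nonZeroDivisors (𝓞 F)) F)⁻¹ := by
    rw [FractionalIdeal.coeIdeal_span_singleton, FractionalIdeal.coeIdeal_span_singleton,
      FractionalIdeal.spanSingleton_inv, FractionalIdeal.spanSingleton_mul_spanSingleton, ← hab,
      div_eq_mul_inv]
  have hA : ((Ideal.span {a} : Ideal (𝓞 F)) : FractionalIdeal (nonZeroDivisors (𝓞 F)) F) ≠ 0 := by
    rw [FractionalIdeal.coeIdeal_ne_zero]
    simpa [Ideal.zero_eq_bot, Ideal.span_singleton_eq_bot] using ha0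
  have hB : ((Ideal.span {b} : Ideal (𝓞 F)) : FractionalIdeal (nonZeroDivisors (𝓞 F)) F) ≠ 0 := by
    rw [FractionalIdeal.coeIdeal_ne_zero]
    simpa [Ideal.zero_eq_bot, Ideal.span_singleton_eq_bot] using hb0
  have hA' : (Ideal.span {a} : Ideal (𝓞 F)) ≠ 0 := by
    simpa [Ideal.zero_eq_bot, Ideal.span_singleton_eq_bot] using ha0
  have hB' : (Ideal.span {b} : Ideal (𝓞 F)) ≠ 0 := by
    simpa [Ideal.zero_eq_bot, Ideal.span_singleton_eq_bot] using hb0
  rw [hspan, FractionalIdeal.count_mul F v hA (inv_ne_zero hB), FractionalIdeal.count_inv,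
    FractionalIdeal.count_coe F v hA', FractionalIdeal.count_coe F v hB']
  have hval : v.valuation F (x : F) = v.intValuation a / v.intValuation b := by
    rw [← hab, map_div₀, HeightOneSpectrum.valuation_of_algebraMap,
      HeightOneSpectrum.valuation_of_algebraMap]
  rw [ordv, hval, HeightOneSpectrum.intValuation_if_neg v ha0,
    HeightOneSpectrum.intValuation_if_neg v hb0, ← WithZero.exp_sub, WithZero.log_exp]
  ring

lemma valuation_unit_eq_one (v : HeightOneSpectrum (𝓞 F)) (u : (𝓞 F)ˣ) :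
    v.valuation F (algebraMap (𝓞 F) F (u : 𝓞 F)) = 1 := by
  have h1 := v.valuation_le_one (K := F) (u : 𝓞 F)
  have h2 := v.valuation_le_one (K := F) ((u⁻¹ : (𝓞 F)ˣ) : 𝓞 F)
  have h3 : v.valuation F (algebraMap (𝓞 F) F (u : 𝓞 F)) *
      v.valuation F (algebraMap (𝓞 F) F ((u⁻¹ : (𝓞 F)ˣ) : 𝓞 F)) = 1 := by
    rw [← map_mul, ← map_mul, ← Units.val_mul, mul_inv_cancel, Units.val_one, map_one, map_one]
  refine le_antisymm h1 ?_
  calc (1 : WithZero (Multiplicative ℤ)) = v.valuation F (algebraMap (𝓞 F) F (u : 𝓞 F)) *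
      v.valuation F (algebraMap (𝓞 F) F ((u⁻¹ : (𝓞 F)ˣ) : 𝓞 F)) := h3.symm
    _ ≤ v.valuation F (algebraMap (𝓞 F) F (u : 𝓞 F)) * 1 := by gcongr
    _ = _ := mul_one _

/-- the kernel of the divisor map consists of the units of `𝓞 F` -/
lemma dv_eq_zero_iff (x : Additive Fˣ) :
    dv F x = 0 ↔ ∃ u : (𝓞 F)ˣ, algebraMap (𝓞 F) F (u : 𝓞 F) = (x.toMul : F) := by
  constructor
  · intro h
    have hv : ∀ v : HeightOneSpectrum (𝓞 F), v.valuation F (x.toMul : F) = 1 := by
      intro v
      rw [← ordv_eq_zero_iff, ← dv_apply, h, Finsupp.zero_apply]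
    have hv' : ∀ v : HeightOneSpectrum (𝓞 F), v.valuation F ((x.toMul⁻¹ : Fˣ) : F) = 1 := by
      intro v
      rw [Units.val_inv_eq_inv_val, map_inv₀, hv v, inv_one]
    obtain ⟨a, ha⟩ := HeightOneSpectrum.mem_integers_of_valuation_le_one F (x.toMul : F)
      (fun v => (hv v).le)
    obtain ⟨b, hb⟩ := HeightOneSpectrum.mem_integers_of_valuation_le_one F ((x.toMul⁻¹ : Fˣ) : F)
      (fun v => (hv' v).le)
    have hab : a * b = 1 := by
      apply FaithfulSMul.algebraMap_injective (𝓞 F) F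
      rw [map_mul, map_one]
      rw [ha, hb, ← Units.val_mul, mul_inv_cancel, Units.val_one]
    exact ⟨⟨a, b, hab, by rw [mul_comm]; exact hab⟩, ha⟩
  · rintro ⟨u, hu⟩
    ext v
    rw [dv_apply, Finsupp.zero_apply, ordv_eq_zero_iff, ← hu]
    exact valuation_unit_eq_one v u

/-- the fractional ideal attached to a divisor -/
noncomputable def idealOfDiv (f : HeightOneSpectrum (𝓞 F) →₀ ℤ) :
    FractionalIdeal (nonZeroDivisors (𝓞 F)) F :=
  f.prod fun v n => (v.asIdeal : FractionalIdeal (nonZeroDivisors (𝓞 F)) F) ^ n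

lemma idealOfDiv_ne_zero (f : HeightOneSpectrum (𝓞 F) →₀ ℤ) : idealOfDiv f ≠ 0 := by
  rw [idealOfDiv, Finsupp.prod, Finset.prod_ne_zero_iff]
  intro v _
  apply zpow_ne_zero
  rw [FractionalIdeal.coeIdeal_ne_zero]
  exact v.ne_bot

lemma count_idealOfDiv (v : HeightOneSpectrum (𝓞 F)) (f : HeightOneSpectrum (𝓞 F) →₀ ℤ) :
    FractionalIdeal.count F v (idealOfDiv f) = f v :=
  FractionalIdeal.count_finsuppProd F v f

end Single

section Sep

lemma index_ne_zero_of_separating {G : Type*} [AddCommGroup G] (H : AddSubgroup G) {X : Type*}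
    [Finite X] (φ : G → X) (hφ : ∀ g g' : G, φ g = φ g' → g - g' ∈ H) : H.index ≠ 0 := by
  have hinj : Function.Injective (fun q : G ⧸ H => φ q.out) := by
    intro q q' h
    have h1 : q.out - q'.out ∈ H := hφ _ _ h
    have h2 : (QuotientAddGroup.mk q.out : G ⧸ H) = QuotientAddGroup.mk q'.out := by
      rw [QuotientAddGroup.eq]
      have : -q.out + q'.out = -(q.out - q'.out) := by abel
      rw [this]
      exact H.neg_mem h1
    simpa using h2
  have : Finite (G ⧸ H) := Finite.of_injective _ hinj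
  exact AddSubgroup.index_ne_zero_of_finite

end Sep

section Coker

variable (F : Type*) [Field F] [NumberField F]

/-- the cokernel of the divisor map is finite (finiteness of the class group) -/
theorem index_range_dv_ne_zero : (AddMonoidHom.range (dv F)).index ≠ 0 := by
  classical
  let φ : (HeightOneSpectrum (𝓞 F) →₀ ℤ) → ClassGroup (𝓞 F) := fun f =>
    ClassGroup.mk F (Units.mk0 (idealOfDiv f) (idealOfDiv_ne_zero f))
  refine index_ne_zero_of_separating _ φ ?_
  intro f g hfg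
  have h1 : ClassGroup.mk F (Units.mk0 (idealOfDiv f) (idealOfDiv_ne_zero f) *
      (Units.mk0 (idealOfDiv g) (idealOfDiv_ne_zero g))⁻¹) = 1 := by
    rw [map_mul, map_inv]
    change φ f * (φ g)⁻¹ = 1
    rw [hfg, mul_inv_cancel]
  rw [ClassGroup.mk_eq_one_iff] at h1
  obtain ⟨x, hx⟩ := h1
  have hx' : idealOfDiv f * (idealOfDiv g)⁻¹ =
      FractionalIdeal.spanSingleton (nonZeroDivisors (𝓞 F)) x := by
    apply FractionalIdeal.coeToSubmodule_injective
    change ((idealOfDiv f * (idealOfDiv g)⁻¹ : FractionalIdeal (nonZeroDivisors (𝓞 F)) F) :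
      Submodule (𝓞 F) F) = (FractionalIdeal.spanSingleton (nonZeroDivisors (𝓞 F)) x :
        FractionalIdeal (nonZeroDivisors (𝓞 F)) F)
    rw [FractionalIdeal.coe_spanSingleton]
    simpa using hx
  have hx0 : x ≠ 0 := by
    rintro rfl
    rw [FractionalIdeal.spanSingleton_zero] at hx'
    exact mul_ne_zero (idealOfDiv_ne_zero f) (inv_ne_zero (idealOfDiv_ne_zero g)) hx'
  refine ⟨Additive.ofMul (Units.mk0 x hx0), ?_⟩
  ext v
  rw [dv_apply, toMul_ofMul, ordv_eq_count, Units.val_mk0, ← hx',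
    FractionalIdeal.count_mul F v (idealOfDiv_ne_zero f) (inv_ne_zero (idealOfDiv_ne_zero g)),
    FractionalIdeal.count_inv, count_idealOfDiv, count_idealOfDiv, Finsupp.sub_apply]
  ring

end Coker

end Fermat.Agent.S14.SI.FT
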