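/-
T14 / SI-FT (first inequality, tame modulus): definitions for the instantiation of
`FT/Abstract.lean` (`not_le_norm_sup`) with `L = Additive Nˣ`, `I = HeightOneSpectrum (𝓞 N) →₀ ℤ`,
`d = dv N`.
-/
import Fermat.Agent.S14.SI.FT.Abstract
import Fermat.Agent.S14.SI.FT.Divisor

set_option autoImplicit false

open NumberField IsDedekindDomain
open scoped Pointwise

namespace Fermat.Agent.S14.SI.FT

variable {K N : Type*} [Field K] [NumberField K] [Field N] [NumberField N] [Algebra K N]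

/-- the Galois action on the height one primes of `𝓞 N` -/
noncomputable def smulH (τ : N ≃ₐ[K] N) (P : HeightOneSpectrum (𝓞 N)) : HeightOneSpectrum (𝓞 N) where
  asIdeal := τ • P.asIdeal
  isPrime := inferInstance
  ne_bot := by
    intro h'
    apply P.ne_bot
    have := congrArg (fun I => τ⁻¹ • I) h'
    simpa using this

@[simp] lemma smulH_asIdeal (τ : N ≃ₐ[K] N) (P : HeightOneSpectrum (𝓞 N)) :
    (smulH τ P).asIdeal = τ • P.asIdeal := rfl

lemma smulH_one (P : HeightOneSpectrum (𝓞 N)) : smulH (1 : N ≃ₐ[K] N) P = P := by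
  ext1
  simp

lemma smulH_mul (τ τ' : N ≃ₐ[K] N) (P : HeightOneSpectrum (𝓞 N)) :
    smulH (τ * τ') P = smulH τ (smulH τ' P) := by
  ext1
  simp [mul_smul]

lemma smulH_injective (τ : N ≃ₐ[K] N) : Function.Injective (smulH τ) := by
  intro P Q h
  have h1 : smulH τ⁻¹ (smulH τ P) = smulH τ⁻¹ (smulH τ Q) := by rw [h]
  rwa [← smulH_mul, ← smulH_mul, inv_mul_cancel, smulH_one, smulH_one] at h1

lemma smulH_surjective (τ : N ≃ₐ[K] N) : Function.Surjective (smulH τ) := by
  intro P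
  exact ⟨smulH τ⁻¹ P, by rw [← smulH_mul, mul_inv_cancel, smulH_one]⟩

/-- the action of `τ` on the divisor group of `N` (push-forward) -/
noncomputable def sigI (τ : N ≃ₐ[K] N) : AddMonoid.End (HeightOneSpectrum (𝓞 N) →₀ ℤ) :=
  Finsupp.mapDomain.addMonoidHom (smulH τ)

lemma sigI_apply_smulH (τ : N ≃ₐ[K] N) (f : HeightOneSpectrum (𝓞 N) →₀ ℤ)
    (P : HeightOneSpectrum (𝓞 N)) : sigI τ f (smulH τ P) = f P :=
  Finsupp.mapDomain_apply (smulH_injective τ) f P

lemma sigI_single (τ : N ≃ₐ[K] N) (P : HeightOneSpectrum (𝓞 N)) (n : ℤ) :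
    sigI τ (Finsupp.single P n) = Finsupp.single (smulH τ P) n :=
  Finsupp.mapDomain_single

/-- the action of `τ` on `Additive Nˣ` -/
noncomputable def sigL (τ : N ≃ₐ[K] N) : AddMonoid.End (Additive Nˣ) :=
  MonoidHom.toAdditive (Units.map ((τ : N →ₐ[K] N) : N →* N))

lemma sigL_apply (τ : N ≃ₐ[K] N) (x : Additive Nˣ) :
    sigL τ x = Additive.ofMul (Units.map ((τ : N →ₐ[K] N) : N →* N) x.toMul) := rfl

lemma coe_sigL (τ : N ≃ₐ[K] N) (x : Additive Nˣ) :
    (((sigL τ x).toMul : Nˣ) : N) = τ ((x.toMul : Nˣ) : N) := rfl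

/-- the inclusion `Kˣ → Nˣ`, additively -/
noncomputable def incl (K N : Type*) [Field K] [Field N] [Algebra K N] :
    Additive Kˣ →+ Additive Nˣ :=
  MonoidHom.toAdditive (Units.map (algebraMap K N : K →* N))

lemma coe_incl (x : Additive Kˣ) :
    (((incl K N x).toMul : Nˣ) : N) = algebraMap K N ((x.toMul : Kˣ) : K) := rfl

lemma incl_injective : Function.Injective (incl K N) := by
  intro x y h
  have h1 : algebraMap K N ((x.toMul : Kˣ) : K) = algebraMap K N ((y.toMul : Kˣ) : K) := by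
    rw [← coe_incl, ← coe_incl, h]
  have h2 := (algebraMap K N).injective h1
  exact Additive.toMul.injective (Units.ext h2)

/-- the ramification index of `P` over `K` -/
noncomputable def eH (K : Type*) {N : Type*} [Field K] [NumberField K] [Field N] [NumberField N]
    [Algebra K N] (P : HeightOneSpectrum (𝓞 N)) : ℕ :=
  (P.under (𝓞 K)).asIdeal.ramificationIdx' P.asIdeal

/-- divisors of `N` coming from `K` (the image of the conorm map on divisors) -/
def Jsub (K : Type*) {N : Type*} [Field K] [NumberField K] [Field N] [NumberField N] [Algebra K N] :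
    AddSubgroup (HeightOneSpectrum (𝓞 N) →₀ ℤ) where
  carrier := {f | ∃ g : HeightOneSpectrum (𝓞 K) → ℤ, ∀ P, f P = eH K P * g (P.under (𝓞 K))}
  zero_mem' := ⟨0, fun P => by simp⟩
  add_mem' := by
    rintro f₁ f₂ ⟨g₁, h₁⟩ ⟨g₂, h₂⟩
    exact ⟨g₁ + g₂, fun P => by simp [h₁ P, h₂ P, mul_add]⟩
  neg_mem' := by
    rintro f ⟨g, h⟩
    exact ⟨-g, fun P => by simp [h P]⟩

/-- divisors of `N` coming from divisors of `K` prime to `R` -/
def JRsub {K N : Type*} [Field K] [NumberField K] [Field N] [NumberField N] [Algebra K N]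
    (R : Finset (HeightOneSpectrum (𝓞 K))) : AddSubgroup (HeightOneSpectrum (𝓞 N) →₀ ℤ) where
  carrier := {f | ∃ g : HeightOneSpectrum (𝓞 K) → ℤ, (∀ v ∈ R, g v = 0) ∧
    ∀ P, f P = eH K P * g (P.under (𝓞 K))}
  zero_mem' := ⟨0, fun _ _ => rfl, fun P => by simp⟩
  add_mem' := by
    rintro f₁ f₂ ⟨g₁, z₁, h₁⟩ ⟨g₂, z₂, h₂⟩
    exact ⟨g₁ + g₂, fun v hv => by simp [z₁ v hv, z₂ v hv], fun P => by simp [h₁ P, h₂ P, mul_add]⟩
  neg_mem' := by
    rintro f ⟨g, z, h⟩
    exact ⟨-g, fun v hv => by simp [z v hv], fun P => by simp [h P]⟩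

lemma JRsub_le_Jsub (R : Finset (HeightOneSpectrum (𝓞 K))) : JRsub (N := N) R ≤ Jsub K := by
  rintro f ⟨g, -, h⟩
  exact ⟨g, h⟩

end Fermat.Agent.S14.SI.FT
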