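/-
T14 / SI-FT piece G1: the Galois action on primes, divisors and `Nˣ`; equivariance of the divisor map;
transitivity on the primes above a given prime; fixed points of `Nˣ`.
-/
import Fermat.Agent.S14.SI.FT.Setup

set_option autoImplicit false

open NumberField IsDedekindDomain
open scoped Pointwise

namespace Fermat.Agent.S14.SI.FT

variable {K N : Type*} [Field K] [NumberField K] [Field N] [NumberField N] [Algebra K N]

/-! ### auxiliary lemmas -/

private lemma smul_algebraMap_int (τ : N ≃ₐ[K] N) (y : 𝓞 K) :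
    τ • (algebraMap (𝓞 K) (𝓞 N) y) = algebraMap (𝓞 K) (𝓞 N) y := by
  apply RingOfIntegers.ext
  change τ (algebraMap K N (y : K)) = algebraMap K N (y : K)
  exact τ.commutes _

private lemma smul_map_algebraMap_int (τ : N ≃ₐ[K] N) (𝔞 : Ideal (𝓞 K)) :
    τ • 𝔞.map (algebraMap (𝓞 K) (𝓞 N)) = 𝔞.map (algebraMap (𝓞 K) (𝓞 N)) := by
  rw [Ideal.pointwise_smul_def, Ideal.map_map]
  congr 1
  ext x
  exact congrArg _ (smul_algebraMap_int τ x)

open WithZero in
private lemma le_of_forall_le_exp_neg_aux {a b : ℤᵐ⁰} (hb : b ≤ 1)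
    (h : ∀ n : ℕ, b ≤ exp (-(n : ℤ)) → a ≤ exp (-(n : ℤ))) : a ≤ b := by
  by_cases hb0 : b = 0
  · subst hb0
    by_contra hne
    have ha0 : a ≠ 0 := fun h0 => hne (h0 ▸ le_rfl)
    have hk := exp_log ha0
    have h1 := h (Int.toNat (-(log a)) + 1) zero_le
    have h2 : exp (log a) ≤ exp (-((Int.toNat (-(log a)) + 1 : ℕ) : ℤ)) := by
      rw [hk]; exact h1
    rw [exp_le_exp] at h2
    have : -(log a) ≤ (Int.toNat (-(log a)) : ℤ) := Int.self_le_toNat _
    push_cast at h2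
    omega
  · have hk := exp_log hb0
    have hlog : log b ≤ 0 := by
      rw [log_le_iff_le_exp hb0, exp_zero]; exact hb
    have h1 := h (Int.toNat (-(log b))) (by
      rw [Int.toNat_of_nonneg (by omega), neg_neg, hk])
    rwa [Int.toNat_of_nonneg (by omega), neg_neg, hk] at h1

open WithZero in
private lemma eq_of_forall_le_exp_neg_iff_aux {a b : ℤᵐ⁰} (ha : a ≤ 1) (hb : b ≤ 1)
    (h : ∀ n : ℕ, a ≤ exp (-(n : ℤ)) ↔ b ≤ exp (-(n : ℤ))) : a = b :=
  le_antisymm (le_of_forall_le_exp_neg_aux hb fun n => (h n).mpr)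
    (le_of_forall_le_exp_neg_aux ha fun n => (h n).mp)

private lemma intValuation_smulH (τ : N ≃ₐ[K] N) (P : HeightOneSpectrum (𝓞 N)) (r : 𝓞 N) :
    (smulH τ P).intValuation (τ • r) = P.intValuation r := by
  apply eq_of_forall_le_exp_neg_iff_aux (HeightOneSpectrum.intValuation_le_one _ _)
    (HeightOneSpectrum.intValuation_le_one _ _)
  intro n
  rw [HeightOneSpectrum.intValuation_le_pow_iff_mem, HeightOneSpectrum.intValuation_le_pow_iff_mem,
    smulH_asIdeal, ← smul_pow', Ideal.smul_mem_pointwise_smul_iff]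

private lemma valuation_smulH (τ : N ≃ₐ[K] N) (P : HeightOneSpectrum (𝓞 N)) (x : N) :
    (smulH τ P).valuation N (τ x) = P.valuation N x := by
  obtain ⟨a, b, hb, rfl⟩ := IsFractionRing.div_surjective (A := 𝓞 N) x
  have h1 : ∀ r : 𝓞 N, τ (algebraMap (𝓞 N) N r) = algebraMap (𝓞 N) N (τ • r) := fun r => rfl
  rw [map_div₀, map_div₀, map_div₀, h1, h1, HeightOneSpectrum.valuation_of_algebraMap,
    HeightOneSpectrum.valuation_of_algebraMap, HeightOneSpectrum.valuation_of_algebraMap,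
    HeightOneSpectrum.valuation_of_algebraMap, intValuation_smulH, intValuation_smulH]

private lemma sigL_mul_aux (τ τ' : N ≃ₐ[K] N) : sigL (τ * τ') = sigL τ * sigL τ' := by
  refine AddMonoidHom.ext fun x => ?_
  apply Additive.toMul.injective
  apply Units.ext
  rfl

private lemma sigL_one_aux : sigL (1 : N ≃ₐ[K] N) = 1 := by
  refine AddMonoidHom.ext fun x => ?_
  apply Additive.toMul.injective
  apply Units.ext
  rfl

private lemma sigI_mul_aux (τ τ' : N ≃ₐ[K] N) : sigI (τ * τ') = sigI τ * sigI τ' := by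
  ext f : 1
  change Finsupp.mapDomain (smulH (τ * τ')) f = Finsupp.mapDomain (smulH τ)
    (Finsupp.mapDomain (smulH τ') f)
  rw [← Finsupp.mapDomain_comp]
  congr 1
  funext P
  exact smulH_mul τ τ' P

private lemma sigI_one_aux : sigI (1 : N ≃ₐ[K] N) = 1 := by
  ext f : 1
  change Finsupp.mapDomain (smulH (1 : N ≃ₐ[K] N)) f = f
  have : smulH (1 : N ≃ₐ[K] N) = id := funext smulH_one
  rw [this, Finsupp.mapDomain_id]

/-! ### the statements -/

/-- (G1-a) -/
theorem under_smulH (τ : N ≃ₐ[K] N) (P : HeightOneSpectrum (𝓞 N)) :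
    (smulH τ P).under (𝓞 K) = P.under (𝓞 K) := by
  ext y
  change algebraMap (𝓞 K) (𝓞 N) y ∈ τ • P.asIdeal ↔ algebraMap (𝓞 K) (𝓞 N) y ∈ P.asIdeal
  rw [Ideal.mem_pointwise_smul_iff_inv_smul_mem, smul_algebraMap_int]

/-- (G1-b) -/
theorem eH_smulH (τ : N ≃ₐ[K] N) (P : HeightOneSpectrum (𝓞 N)) :
    eH K (smulH τ P) = eH K P := by
  unfold eH
  rw [under_smulH, smulH_asIdeal]
  unfold Ideal.ramificationIdx'
  congr 1
  ext n
  simp only [Set.mem_ofPred_eq]
  rw [← smul_pow', ← smul_map_algebraMap_int τ ((P.under (𝓞 K)).asIdeal),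
    Ideal.pointwise_smul_le_pointwise_smul_iff, smul_map_algebraMap_int]

/-- (G1-c) -/
theorem ordv_smulH (τ : N ≃ₐ[K] N) (P : HeightOneSpectrum (𝓞 N)) (x : Nˣ) :
    ordv (smulH τ P) (Units.map ((τ : N →ₐ[K] N) : N →* N) x) = ordv P x := by
  unfold ordv
  rw [Units.coe_map]
  change -(WithZero.log ((smulH τ P).valuation N (τ (x : N)))) = _
  rw [valuation_smulH]

/-- (G1-d) the Galois group is transitive on the primes above a prime of `K` -/
theorem exists_smulH_eq [IsGalois K N] (P Q : HeightOneSpectrum (𝓞 N))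
    (h : P.under (𝓞 K) = Q.under (𝓞 K)) : ∃ τ : N ≃ₐ[K] N, smulH τ P = Q := by
  have hG : IsGaloisGroup (N ≃ₐ[K] N) (𝓞 K) (𝓞 N) :=
    IsGaloisGroup.of_isFractionRing (N ≃ₐ[K] N) (𝓞 K) (𝓞 N) K N
  have hP : P.asIdeal.LiesOver (P.under (𝓞 K)).asIdeal := ⟨rfl⟩
  have hQ : Q.asIdeal.LiesOver (P.under (𝓞 K)).asIdeal := ⟨by rw [h]; rfl⟩
  obtain ⟨σ, hσ⟩ := Ideal.exists_smul_eq_of_isGaloisGroup (P.under (𝓞 K)).asIdeal P.asIdeal
    Q.asIdeal (N ≃ₐ[K] N)
  exact ⟨σ, HeightOneSpectrum.ext hσ⟩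

/-- (G1-e) every prime of `K` has a prime of `N` above it -/
theorem exists_under_eq (v : HeightOneSpectrum (𝓞 K)) :
    ∃ P : HeightOneSpectrum (𝓞 N), P.under (𝓞 K) = v := by
  obtain ⟨P, hPm, hP⟩ := Ideal.exists_maximal_ideal_liesOver_of_isIntegral (S := 𝓞 N) v.asIdeal
  have hne : P ≠ ⊥ := by
    rintro rfl
    apply v.ne_bot
    rw [hP.over]
    exact Ideal.under_bot (𝓞 K) (𝓞 N)
  refine ⟨⟨P, hPm.isPrime, hne⟩, ?_⟩
  ext y
  change y ∈ P.under (𝓞 K) ↔ y ∈ v.asIdeal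
  rw [← hP.over]

/-- (G1-f) equivariance of the divisor map -/
theorem dv_sigL (τ : N ≃ₐ[K] N) (x : Additive Nˣ) : dv N (sigL τ x) = sigI τ (dv N x) := by
  ext Q
  obtain ⟨P, rfl⟩ := smulH_surjective τ Q
  rw [sigI_apply_smulH, dv_apply, dv_apply]
  exact ordv_smulH τ P x.toMul

/-- (G1-g) -/
theorem sigL_pow (τ : N ≃ₐ[K] N) (i : ℕ) : sigL τ ^ i = sigL (τ ^ i) := by
  induction i with
  | zero => rw [pow_zero, pow_zero, sigL_one_aux]
  | succ i ih => rw [pow_succ, pow_succ, sigL_mul_aux, ih]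

/-- (G1-h) -/
theorem sigI_pow (τ : N ≃ₐ[K] N) (i : ℕ) : sigI τ ^ i = sigI (τ ^ i) := by
  induction i with
  | zero => rw [pow_zero, pow_zero, sigI_one_aux]
  | succ i ih => rw [pow_succ, pow_succ, sigI_mul_aux, ih]

/-- (G1-i) -/
theorem sigL_one : sigL (1 : N ≃ₐ[K] N) = 1 := sigL_one_aux

/-- (G1-j) -/
theorem sigI_one : sigI (1 : N ≃ₐ[K] N) = 1 := sigI_one_aux

/-- (G1-l) every element of the Galois group is a power of `σ ≠ 1` -/
theorem exists_pow_eq [IsGalois K N] {p : ℕ} (hp : p.Prime)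
    (hdeg : Module.finrank K N = p) (σ : N ≃ₐ[K] N) (hσ : σ ≠ 1) (τ : N ≃ₐ[K] N) :
    ∃ i : ℕ, i < p ∧ σ ^ i = τ := by
  have : Fact p.Prime := ⟨hp⟩
  have hcard : Nat.card (N ≃ₐ[K] N) = p := by
    rw [IsGalois.card_aut_eq_finrank, hdeg]
  obtain ⟨k, hk⟩ := mem_powers_of_prime_card hcard hσ (g' := τ)
  have hord : orderOf σ = p := by
    refine orderOf_eq_prime ?_ hσ
    rw [← hcard]
    exact pow_card_eq_one'
  refine ⟨k % p, Nat.mod_lt _ hp.pos, ?_⟩
  rw [← hord, pow_mod_orderOf]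
  exact hk

/-- (G1-k) the elements of `Nˣ` fixed by a generator of the Galois group come from `Kˣ` -/
theorem mem_range_incl_of_fixed [IsGalois K N] {p : ℕ} (hp : p.Prime)
    (hdeg : Module.finrank K N = p) (σ : N ≃ₐ[K] N) (hσ : σ ≠ 1) (x : Additive Nˣ)
    (hx : sigL σ x = x) : ∃ y : Additive Kˣ, incl K N y = x := by
  have hfix : ∀ τ : N ≃ₐ[K] N, τ ((x.toMul : Nˣ) : N) = ((x.toMul : Nˣ) : N) := by
    intro τ
    obtain ⟨i, -, rfl⟩ := exists_pow_eq hp hdeg σ hσ τ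
    have h1 : sigL (σ ^ i) x = x := by
      rw [← sigL_pow]
      clear hσ
      induction i with
      | zero => rfl
      | succ i ih =>
        rw [pow_succ]
        change (sigL σ ^ i) (sigL σ x) = x
        rw [hx, ih]
    rw [← coe_sigL, h1]
  have hmem : ((x.toMul : Nˣ) : N) ∈ (⊥ : IntermediateField K N) := by
    rw [← IsGalois.fixedField_top (F := K) (E := N)]
    rw [IntermediateField.mem_fixedField_iff]
    intro τ _
    exact hfix τ
  obtain ⟨y, hy⟩ := IntermediateField.mem_bot.mp hmem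
  have hy0 : y ≠ 0 := by
    rintro rfl
    rw [map_zero] at hy
    exact (x.toMul : Nˣ).ne_zero hy.symm
  refine ⟨Additive.ofMul (Units.mk0 y hy0), ?_⟩
  apply Additive.toMul.injective
  apply Units.ext
  rw [coe_incl]
  exact hy

/-- (G1-m) -/
theorem sigL_incl (τ : N ≃ₐ[K] N) (y : Additive Kˣ) : sigL τ (incl K N y) = incl K N y := by
  apply Additive.toMul.injective
  apply Units.ext
  rw [coe_sigL, coe_incl]
  exact τ.commutes _

end Fermat.Agent.S14.SI.FT
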