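/-
T14 / SI-FT piece G3: cohomological inputs for `FT/Abstract.not_le_norm_sup` in the instantiation
`L = Additive Nˣ`, `d = dv N`: Hilbert 90 and the Herbrand quotient of the units.
Sources: `FirstInequality/H90.lean` (`FI.field_hilbert90`), `UnitsHerbrand.lean`
(`units_herbrand`, to be transported along the injection `(𝓞 N)ˣ → Nˣ` whose image is `ker (dv N)`,
see `FT/Divisor.dv_eq_zero_iff`).
-/
import Fermat.Agent.S14.SI.FT.Setup
import Fermat.Agent.S14.FirstInequality.H90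
import Fermat.Agent.S14_helper27.SUnits

set_option autoImplicit false

open NumberField IsDedekindDomain
open scoped Pointwise

namespace Fermat.Agent.S14.SI.FT

variable {K N : Type*} [Field K] [NumberField K] [Field N] [NumberField N] [Algebra K N]

namespace CohAux

omit [NumberField K] [NumberField N] in
lemma sigL_one_aux : sigL (1 : N ≃ₐ[K] N) = 1 := by
  refine AddMonoidHom.ext (fun x => ?_)
  apply Additive.toMul.injective
  apply Units.ext
  rfl

omit [NumberField K] [NumberField N] in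
lemma sigL_mul_aux (τ τ' : N ≃ₐ[K] N) : sigL (τ * τ') = sigL τ * sigL τ' := by
  refine AddMonoidHom.ext (fun x => ?_)
  apply Additive.toMul.injective
  apply Units.ext
  rfl

omit [NumberField K] [NumberField N] in
lemma sigL_pow_aux (τ : N ≃ₐ[K] N) (i : ℕ) : sigL τ ^ i = sigL (τ ^ i) := by
  induction i with
  | zero => rw [pow_zero, pow_zero, sigL_one_aux]
  | succ i ih => rw [pow_succ, pow_succ, ih, sigL_mul_aux]

omit [NumberField K] [NumberField N] in
lemma coe_nrm_sigL (p : ℕ) (τ : N ≃ₐ[K] N) (z : Additive Nˣ) :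
    (((nrm p (sigL τ) z).toMul : Nˣ) : N) = ∏ i ∈ Finset.range p, (τ ^ i) ((z.toMul : Nˣ) : N) := by
  rw [nrm_apply, toMul_sum, Units.coe_prod]
  refine Finset.prod_congr rfl (fun i _ => ?_)
  rw [sigL_pow_aux]
  rfl

section Transport

variable {A B : Type*} [AddCommGroup A] [AddCommGroup B]

lemma map_pow_end (ι : A →+ B) (f : AddMonoid.End A) (g : AddMonoid.End B)
    (h : ∀ u, ι (f u) = g (ι u)) (i : ℕ) (u : A) : ι ((f ^ i) u) = (g ^ i) (ι u) := by
  induction i generalizing u with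
  | zero => simp
  | succ i ih =>
    rw [pow_succ, pow_succ]
    change ι ((f ^ i) (f u)) = (g ^ i) (g (ι u))
    rw [ih, h]

lemma map_dlt_end (ι : A →+ B) (f : AddMonoid.End A) (g : AddMonoid.End B)
    (h : ∀ u, ι (f u) = g (ι u)) (u : A) : ι (dlt f u) = dlt g (ι u) := by
  rw [dlt_apply, dlt_apply, map_sub, h]

lemma map_nrm_end (p : ℕ) (ι : A →+ B) (f : AddMonoid.End A) (g : AddMonoid.End B)
    (h : ∀ u, ι (f u) = g (ι u)) (u : A) : ι (nrm p f u) = nrm p g (ι u) := by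
  rw [nrm_apply, nrm_apply, map_sum]
  exact Finset.sum_congr rfl (fun i _ => map_pow_end ι f g h i u)

lemma range_map_eq (ι : A →+ B) (F : A →+ A) (G : B →+ B) (h : ∀ u, ι (F u) = G (ι u)) :
    (AddMonoidHom.range ι).map G = ((⊤ : AddSubgroup A).map F).map ι := by
  ext x
  constructor
  · rintro ⟨_, ⟨u, rfl⟩, rfl⟩
    exact ⟨F u, ⟨u, trivial, rfl⟩, h u⟩
  · rintro ⟨_, ⟨u, -, rfl⟩, rfl⟩
    exact ⟨ι u, ⟨u, rfl⟩, (h u).symm⟩

lemma range_inf_ker_eq (ι : A →+ B) (hι : Function.Injective ι) (F : A →+ A) (G : B →+ B)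
    (h : ∀ u, ι (F u) = G (ι u)) :
    AddMonoidHom.range ι ⊓ AddMonoidHom.ker G = ((⊤ : AddSubgroup A) ⊓ AddMonoidHom.ker F).map ι := by
  ext x
  constructor
  · rintro ⟨⟨u, rfl⟩, hx⟩
    refine ⟨u, ⟨trivial, ?_⟩, rfl⟩
    have hx' : G (ι u) = 0 := hx
    change F u = 0
    apply hι
    rw [h, hx', map_zero]
  · rintro ⟨u, ⟨-, hu⟩, rfl⟩
    refine ⟨⟨u, rfl⟩, ?_⟩
    have hu' : F u = 0 := hu
    change G (ι u) = 0
    rw [← h, hu', map_zero]

lemma relIndex_transport (ι : A →+ B) (hι : Function.Injective ι) (F₁ F₂ : A →+ A)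
    (G₁ G₂ : B →+ B) (h₁ : ∀ u, ι (F₁ u) = G₁ (ι u)) (h₂ : ∀ u, ι (F₂ u) = G₂ (ι u)) :
    ((AddMonoidHom.range ι).map G₁).relIndex (AddMonoidHom.range ι ⊓ AddMonoidHom.ker G₂) =
      (((⊤ : AddSubgroup A).map F₁)).relIndex ((⊤ : AddSubgroup A) ⊓ AddMonoidHom.ker F₂) := by
  rw [range_map_eq ι F₁ G₁ h₁, range_inf_ker_eq ι hι F₂ G₂ h₂,
    AddSubgroup.relIndex_map_map_of_injective _ _ hι]

end Transport

/-- the inclusion of the units of `𝓞 N` into `Nˣ`, additively -/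
noncomputable def unitIncl (N : Type*) [Field N] [NumberField N] :
    Additive (𝓞 N)ˣ →+ Additive Nˣ :=
  MonoidHom.toAdditive (Units.map (algebraMap (𝓞 N) N : 𝓞 N →* N))

lemma coe_unitIncl (u : Additive (𝓞 N)ˣ) :
    (((unitIncl N u).toMul : Nˣ) : N) = algebraMap (𝓞 N) N ((u.toMul : (𝓞 N)ˣ) : 𝓞 N) := rfl

lemma unitIncl_injective : Function.Injective (unitIncl N) := by
  intro x y h
  have h1 : algebraMap (𝓞 N) N ((x.toMul : (𝓞 N)ˣ) : 𝓞 N)
      = algebraMap (𝓞 N) N ((y.toMul : (𝓞 N)ˣ) : 𝓞 N) := by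
    rw [← coe_unitIncl, ← coe_unitIncl, h]
  have h2 := FaithfulSMul.algebraMap_injective (𝓞 N) N h1
  exact Additive.toMul.injective (Units.ext h2)

lemma range_unitIncl : AddMonoidHom.range (unitIncl N) = AddMonoidHom.ker (dv N) := by
  ext x
  rw [AddMonoidHom.mem_ker, dv_eq_zero_iff]
  constructor
  · rintro ⟨u, rfl⟩
    exact ⟨u.toMul, rfl⟩
  · rintro ⟨u, hu⟩
    refine ⟨Additive.ofMul u, ?_⟩
    apply Additive.toMul.injective
    apply Units.ext
    exact hu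

lemma unitIncl_addAct (σ : N ≃ₐ[K] N) (u : Additive (𝓞 N)ˣ) :
    unitIncl N (UH.addAct σ u) = sigL σ (unitIncl N u) := by
  apply Additive.toMul.injective
  apply Units.ext
  rfl

end CohAux

/-- (G3-a) Hilbert 90 -/
theorem h90_sigL [IsGalois K N] {p : ℕ} (hp : p.Prime) (hdeg : Module.finrank K N = p)
    (σ : N ≃ₐ[K] N) (hσ : σ ≠ 1) (z : Additive Nˣ) (hz : nrm p (sigL σ) z = 0) :
    ∃ t : Additive Nˣ, z = dlt (sigL σ) t := by
  have hx : ∏ i ∈ Finset.range p, (σ ^ i) ((z.toMul : Nˣ) : N) = 1 := by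
    rw [← CohAux.coe_nrm_sigL, hz]
    rfl
  obtain ⟨y, hy0, hy⟩ := FI.field_hilbert90 hp hdeg σ hσ _ hx
  refine ⟨Additive.ofMul (Units.mk0 y hy0)⁻¹, ?_⟩
  apply Additive.toMul.injective
  apply Units.ext
  rw [dlt_apply]
  change ((z.toMul : Nˣ) : N) = σ ((Units.mk0 y hy0)⁻¹ : Nˣ) * (((Units.mk0 y hy0)⁻¹)⁻¹ : Nˣ)
  have hσy : σ y ≠ 0 := by
    rw [Ne, map_eq_zero_iff σ σ.injective]
    exact hy0
  rw [inv_inv, Units.val_inv_eq_inv_val, Units.val_mk0, map_inv₀]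
  field_simp
  exact hy

/-- (G3-b) a number field containing a primitive `p`-th root of unity, `p` odd, is totally complex -/
theorem isTotallyComplex_of_isPrimitiveRoot {p : ℕ} (hp : p.Prime) (hp2 : p ≠ 2) (ζ : K)
    (hζ : IsPrimitiveRoot ζ p) : IsTotallyComplex K := by
  have h3 : 3 ≤ p := by
    have := hp.two_le
    omega
  exact Fermat.Agent.S14_helper27.isTotallyComplex_of_isPrimitiveRoot K h3 hζ

/-- (G3-c) the Herbrand quotient of the units, in the language of `FT/Abstract.lean` -/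
theorem herbrand_ker_dv [IsGalois K N] {p : ℕ} (hp : p.Prime) (hdeg : Module.finrank K N = p)
    (hK : IsTotallyComplex K) (σ : N ≃ₐ[K] N) (hσ : σ ≠ 1) :
    ((AddMonoidHom.ker (dv N)).map (nrm p (sigL σ))).relIndex
        (AddMonoidHom.ker (dv N) ⊓ AddMonoidHom.ker (dlt (sigL σ))) ≠ 0 ∧
    ((AddMonoidHom.ker (dv N)).map (dlt (sigL σ))).relIndex
        (AddMonoidHom.ker (dv N) ⊓ AddMonoidHom.ker (nrm p (sigL σ))) =
      p * ((AddMonoidHom.ker (dv N)).map (nrm p (sigL σ))).relIndex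
        (AddMonoidHom.ker (dv N) ⊓ AddMonoidHom.ker (dlt (sigL σ))) := by
  obtain ⟨-, h2, h3⟩ := UH.units_herbrand_add hp hdeg hK σ hσ (⊤ : AddSubgroup (Additive (𝓞 N)ˣ))
    (fun _ _ => trivial) 1 one_ne_zero (fun _ => trivial)
  have hι := CohAux.unitIncl_injective (N := N)
  have hact := CohAux.unitIncl_addAct (K := K) (N := N) σ
  have hD : ∀ u, CohAux.unitIncl N (dlt (UH.addAct σ) u) = dlt (sigL σ) (CohAux.unitIncl N u) :=
    CohAux.map_dlt_end _ _ _ hact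
  have hN : ∀ u, CohAux.unitIncl N (nrm p (UH.addAct σ) u) = nrm p (sigL σ) (CohAux.unitIncl N u) :=
    CohAux.map_nrm_end p _ _ _ hact
  have e1 := CohAux.relIndex_transport (CohAux.unitIncl N) hι (nrm p (UH.addAct σ))
    (dlt (UH.addAct σ)) (nrm p (sigL σ)) (dlt (sigL σ)) hN hD
  have e2 := CohAux.relIndex_transport (CohAux.unitIncl N) hι (dlt (UH.addAct σ))
    (nrm p (UH.addAct σ)) (dlt (sigL σ)) (nrm p (sigL σ)) hD hN
  rw [CohAux.range_unitIncl] at e1 e2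
  rw [e1, e2]
  exact ⟨h2, h3⟩

end Fermat.Agent.S14.SI.FT
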