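import Fermat.Agent.S14.SI.Approx
import Fermat.Agent.S14.SI.Bridge

/-!
# T14 / SI-FT piece P1 (helper12): common coprime fractions and prescribed valuations

* `exists_coprime_fraction`: `x ∈ Kˣ` a unit at every `v ∈ S` is `a / b` with `a, b ∈ 𝓞 K` outside
  every `v ∈ S` (prime avoidance for the denominator ideal).
* `exists_valuation_eq`: there is `x ∈ Kˣ` with prescribed valuations at the finitely many `v ∈ R`.
-/

set_option autoImplicit false

open NumberField IsDedekindDomain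

namespace Fermat.Agent.S14.SI.FT

variable {K : Type*} [Field K] [NumberField K]

/-- the denominator ideal of `x : K`. -/
def denomIdeal (x : K) : Ideal (𝓞 K) where
  carrier := {c | ∃ a : 𝓞 K, x * (c : K) = (a : K)}
  add_mem' := by
    rintro c c' ⟨a, ha⟩ ⟨a', ha'⟩
    refine ⟨a + a', ?_⟩
    have h : x * ((c : K) + (c' : K)) = (a : K) + (a' : K) := by rw [mul_add, ha, ha']
    exact_mod_cast h
  zero_mem' := ⟨0, by simp⟩
  smul_mem' := by
    rintro r c ⟨a, ha⟩
    refine ⟨r * a, ?_⟩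
    rw [smul_eq_mul]
    have h : x * ((r : K) * (c : K)) = (r : K) * (a : K) := by
      rw [← ha]
      ring
    exact_mod_cast h

lemma mem_denomIdeal {x : K} {c : 𝓞 K} : c ∈ denomIdeal x ↔ ∃ a : 𝓞 K, x * (c : K) = (a : K) :=
  Iff.rfl

theorem exists_coprime_fraction (S : Finset (HeightOneSpectrum (𝓞 K))) (x : Kˣ)
    (hx : ∀ v ∈ S, v.valuation K (x : K) = 1) :
    ∃ a b : 𝓞 K, (x : K) * (b : K) = (a : K) ∧ ∀ v ∈ S, a ∉ v.asIdeal ∧ b ∉ v.asIdeal := by
  classical
  -- the denominator ideal is contained in no `v ∈ S`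
  have hnot : ¬ ((denomIdeal (x : K) : Set (𝓞 K)) ⊆ ⋃ v ∈ (S : Set (HeightOneSpectrum (𝓞 K))),
      ((v.asIdeal : Ideal (𝓞 K)) : Set (𝓞 K))) := by
    by_cases hS : S.Nonempty
    · obtain ⟨v₀, hv₀⟩ := hS
      rw [Ideal.subset_union_prime (s := S) (f := fun v => v.asIdeal) v₀ v₀
        (fun v _ _ _ => v.isPrime)]
      rintro ⟨v, hv, hle⟩
      obtain ⟨a, ⟨d, hd⟩, had⟩ :=
        v.exists_primeCompl_mul_eq_of_integer (K := K) (x : K) (hx v hv).le
      exact hd (hle ⟨a, had⟩)
    · rw [Finset.not_nonempty_iff_eq_empty] at hS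
      subst hS
      intro h
      have h1 : (1 : 𝓞 K) ∈ denomIdeal (x : K) := by
        have := h (show (0 : 𝓞 K) ∈ (denomIdeal (x : K) : Set (𝓞 K)) from Ideal.zero_mem _)
        simp at this
      have := h h1
      simp at this
  rw [Set.not_subset] at hnot
  obtain ⟨b, hb, hbnot⟩ := hnot
  obtain ⟨a, hab⟩ := hb
  refine ⟨a, b, hab, fun v hv => ?_⟩
  have hbv : b ∉ v.asIdeal := by
    intro hmem
    apply hbnot
    simp only [Set.mem_iUnion]
    exact ⟨v, hv, hmem⟩
  refine ⟨?_, hbv⟩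
  have hvb : v.valuation K (algebraMap (𝓞 K) K b) = 1 :=
    (v.valuation_eq_one_iff_notMem (K := K)).2 hbv
  have hva : v.valuation K (algebraMap (𝓞 K) K a) = 1 := by
    have := congrArg (v.valuation K) hab
    rw [map_mul, hx v hv, one_mul] at this
    change v.valuation K (algebraMap (𝓞 K) K b) = v.valuation K (algebraMap (𝓞 K) K a) at this
    rw [← this, hvb]
  exact (v.valuation_eq_one_iff_notMem (K := K)).1 hva

open WithZero in
theorem exists_valuation_eq (R : Finset (HeightOneSpectrum (𝓞 K)))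
    (g : HeightOneSpectrum (𝓞 K) → ℤ) :
    ∃ x : Kˣ, ∀ v ∈ R, v.valuation K (x : K) = WithZero.exp (g v) := by
  classical
  -- local targets: a power of a uniformiser
  have hloc : ∀ v : HeightOneSpectrum (𝓞 K), ∃ y : Kˣ, v.valuation K (y : K) = exp (g v) := by
    intro v
    obtain ⟨π, hπ⟩ := v.valuation_exists_uniformizer K
    have hπ0 : π ≠ 0 := by
      rintro rfl
      rw [map_zero] at hπ
      exact exp_ne_zero hπ.symm
    refine ⟨(Units.mk0 π hπ0) ^ (-(g v)), ?_⟩
    rw [Units.val_zpow_eq_zpow_val, map_zpow₀, Units.val_mk0, hπ, ← exp_zsmul]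
    simp
  choose y hy using hloc
  obtain ⟨x, hx⟩ := exists_approx R y (fun _ => 0)
  refine ⟨x, fun v hv => ?_⟩
  have h1 : v.valuation K (((x / y v : Kˣ)) : K) = 1 :=
    (Bridge.isUnitAt_iff v _).mp (hx v hv)
  rw [Units.val_div_eq_div_val, map_div₀, hy v] at h1
  rw [div_eq_one_iff_eq exp_ne_zero] at h1
  exact h1

end Fermat.Agent.S14.SI.FT
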