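import Mathlib

/-!
# T14 / SI-FT piece P3: a ramified prime in a Galois extension of prime degree

`N / K` Galois of prime degree `p`, `P` a nonzero prime of `𝓞 N` whose inertia group is nontrivial.
Then the inertia group is everything, `P` is the only prime above `P ∩ 𝓞 K`, the residue field
extension is trivial and `e = p` (`totally_ramified_of_inertia_ne_bot`).  In that situation the
norm is congruent to the `p`-th power modulo `P` (`intNorm_sub_pow_mul_mem`).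

Statements are those of the SI-FT owner (board post 816), verbatim.
-/

set_option autoImplicit false
set_option linter.style.haveILetI false
set_option linter.unusedSectionVars false

open NumberField IsDedekindDomain
open scoped Pointwise

namespace Fermat.Agent.S14.SI.FT

variable {K N : Type*} [Field K] [NumberField K] [Field N] [NumberField N] [Algebra K N]
  [IsGalois K N]

namespace Ramified

/-- A nonzero prime of `𝓞 N` contracts to a nonzero prime of `𝓞 K`. -/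
theorem under_ne_bot (P : Ideal (𝓞 N)) [P.IsPrime] (hP : P ≠ ⊥) :
    P.under (𝓞 K) ≠ ⊥ := by
  intro h
  have : P.LiesOver (⊥ : Ideal (𝓞 K)) := ⟨h.symm⟩
  exact hP (Ideal.eq_bot_of_liesOver_bot (𝓞 K) P)

/-- In a group of prime order, an inertia group containing a nontrivial element is everything. -/
theorem inertia_eq_top {p : ℕ} (hp : p.Prime) (hcard : Nat.card (N ≃ₐ[K] N) = p)
    (P : Ideal (𝓞 N)) (τ : N ≃ₐ[K] N) (hτ1 : τ ≠ 1)
    (hτ : ∀ z : 𝓞 N, τ • z - z ∈ P) : P.inertia (N ≃ₐ[K] N) = ⊤ := by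
  have : Fact (Nat.card (N ≃ₐ[K] N)).Prime := ⟨hcard ▸ hp⟩
  rcases Subgroup.eq_bot_or_eq_top_of_prime_card (P.inertia (N ≃ₐ[K] N)) with h | h
  · exfalso
    have : τ ∈ P.inertia (N ≃ₐ[K] N) := hτ
    rw [h, Subgroup.mem_bot] at this
    exact hτ1 this
  · exact h

/-- The image of the integral norm in `𝓞 N` is the product of the Galois conjugates. -/
theorem algebraMap_intNorm_eq_prod_smul (a : 𝓞 N) :
    algebraMap (𝓞 K) (𝓞 N) (Algebra.intNorm (𝓞 K) (𝓞 N) a) = ∏ σ : N ≃ₐ[K] N, σ • a := by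
  apply RingOfIntegers.ext
  have h1 : ((algebraMap (𝓞 K) (𝓞 N) (Algebra.intNorm (𝓞 K) (𝓞 N) a) : 𝓞 N) : N) =
      algebraMap K N (algebraMap (𝓞 K) K (Algebra.intNorm (𝓞 K) (𝓞 N) a)) := rfl
  rw [h1, Algebra.algebraMap_intNorm (A := 𝓞 K) (K := K) (L := N) (B := 𝓞 N),
    Algebra.norm_eq_prod_automorphisms]
  have h2 : ((∏ σ : N ≃ₐ[K] N, σ • a : 𝓞 N) : N) = ∏ σ : N ≃ₐ[K] N, ((σ • a : 𝓞 N) : N) :=
    map_prod (algebraMap (𝓞 N) N) _ _
  rw [h2]
  rfl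

/-- If every `τ` acts trivially mod `P`, the norm is congruent to the `[N:K]`-th power mod `P`. -/
theorem mk_algebraMap_intNorm_eq_pow {p : ℕ} (hdeg : Module.finrank K N = p)
    (P : Ideal (𝓞 N)) (hin : ∀ (τ : N ≃ₐ[K] N) (z : 𝓞 N), τ • z - z ∈ P) (z : 𝓞 N) :
    Ideal.Quotient.mk P (algebraMap (𝓞 K) (𝓞 N) (Algebra.intNorm (𝓞 K) (𝓞 N) z)) =
      Ideal.Quotient.mk P z ^ p := by
  have hcard : Fintype.card (N ≃ₐ[K] N) = p := by
    rw [← Nat.card_eq_fintype_card, IsGalois.card_aut_eq_finrank, hdeg]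
  rw [algebraMap_intNorm_eq_prod_smul, map_prod]
  have : ∀ σ : N ≃ₐ[K] N, Ideal.Quotient.mk P (σ • z) = Ideal.Quotient.mk P z := fun σ =>
    Ideal.Quotient.eq.mpr (hin σ z)
  simp only [this, Finset.prod_const, Finset.card_univ, hcard]

end Ramified

open Ramified

/-- FT-P3 (1): a prime with nontrivial inertia in a Galois extension of prime degree `p` is totally
ramified: full inertia, unique prime above, trivial residue extension, `e = p`. -/
theorem totally_ramified_of_inertia_ne_bot {p : ℕ} (hp : p.Prime)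
    (hdeg : Module.finrank K N = p) (P : Ideal (𝓞 N)) [P.IsPrime] (hP : P ≠ ⊥)
    (τ : N ≃ₐ[K] N) (hτ1 : τ ≠ 1) (hτ : ∀ z : 𝓞 N, τ • z - z ∈ P) :
    (∀ (τ' : N ≃ₐ[K] N) (z : 𝓞 N), τ' • z - z ∈ P) ∧
    (∀ Q : Ideal (𝓞 N), Q.IsPrime → Q.under (𝓞 K) = P.under (𝓞 K) → Q = P) ∧
    (∀ z : 𝓞 N, ∃ c : 𝓞 K, z - algebraMap (𝓞 K) (𝓞 N) c ∈ P) ∧
    P.ramificationIdx (𝓞 K) = p := by
  have hcard : Nat.card (N ≃ₐ[K] N) = p := by
    rw [IsGalois.card_aut_eq_finrank, hdeg]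
  have hI : P.inertia (N ≃ₐ[K] N) = ⊤ := inertia_eq_top hp hcard P τ hτ1 hτ
  have hIcard : Nat.card (P.inertia (N ≃ₐ[K] N)) = p := by
    rw [hI, Subgroup.card_top, hcard]
  have hall : ∀ (τ' : N ≃ₐ[K] N) (z : 𝓞 N), τ' • z - z ∈ P := by
    intro τ' z
    have : τ' ∈ P.inertia (N ≃ₐ[K] N) := by rw [hI]; exact Subgroup.mem_top _
    exact this z
  -- the prime below
  set 𝔭 : Ideal (𝓞 K) := P.under (𝓞 K) with h𝔭
  have h𝔭0 : 𝔭 ≠ ⊥ := under_ne_bot P hP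
  haveI : 𝔭.IsMaximal := Ring.DimensionLEOne.maximalOfPrime h𝔭0 inferInstance
  haveI : P.IsMaximal := Ring.DimensionLEOne.maximalOfPrime hP inferInstance
  haveI : P.LiesOver 𝔭 := ⟨rfl⟩
  have hfund := Ideal.ncard_primesOver_mul_card_inertia_mul_finrank (G := N ≃ₐ[K] N) 𝔭 P
  rw [hIcard, hcard] at hfund
  have hpos : 0 < p := hp.pos
  have hnf : (𝔭.primesOver (𝓞 N)).ncard * P.inertiaDeg (𝓞 K) = 1 := by
    have : p * ((𝔭.primesOver (𝓞 N)).ncard * P.inertiaDeg (𝓞 K)) = p * 1 := by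
      rw [mul_one]; nlinarith [hfund]
    exact Nat.eq_of_mul_eq_mul_left hpos this
  have hf1 : P.inertiaDeg (𝓞 K) = 1 := Nat.eq_one_of_mul_eq_one_left hnf
  refine ⟨hall, ?_, ?_, ?_⟩
  · intro Q hQ hQP
    obtain ⟨g, hg⟩ := Algebra.IsInvariant.exists_smul_of_under_eq (𝓞 K) (𝓞 N) (N ≃ₐ[K] N) P Q
      hQP.symm
    have hgs : g ∈ MulAction.stabilizer (N ≃ₐ[K] N) P := by
      apply Ideal.inertia_le_stabilizer P
      rw [hI]; exact Subgroup.mem_top _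
    rw [hg]
    exact hgs
  · intro z
    rw [Ideal.inertiaDeg_eq_of_isMaximal 𝔭 P] at hf1
    letI : Field (𝓞 K ⧸ 𝔭) := Ideal.Quotient.field 𝔭
    letI : Field (𝓞 N ⧸ P) := Ideal.Quotient.field P
    have hbt : (⊥ : Subalgebra (𝓞 K ⧸ 𝔭) (𝓞 N ⧸ P)) = ⊤ :=
      Subalgebra.bot_eq_top_of_finrank_eq_one hf1
    have hz : Ideal.Quotient.mk P z ∈ (⊥ : Subalgebra (𝓞 K ⧸ 𝔭) (𝓞 N ⧸ P)) := by
      rw [hbt]; exact Algebra.mem_top
    rw [Algebra.mem_bot] at hz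
    obtain ⟨c', hc'⟩ := hz
    obtain ⟨c, rfl⟩ := Ideal.Quotient.mk_surjective c'
    refine ⟨c, ?_⟩
    rw [← Ideal.Quotient.eq_zero_iff_mem, map_sub, sub_eq_zero, ← hc']
    rfl
  · rw [← Ideal.ramificationIdxIn_eq_ramificationIdx 𝔭 P (N ≃ₐ[K] N),
      ← Ideal.card_inertia_eq_ramificationIdxIn (G := N ≃ₐ[K] N) 𝔭 P, hIcard]

/-- FT-P3 (2): at a totally ramified prime `P` (full inertia, trivial residue extension) the norms
of two elements prime to `P` are prime to `P ∩ 𝓞 K` and differ by a `p`-th power residue. -/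
theorem intNorm_sub_pow_mul_mem {p : ℕ} (hp : p.Prime) (hdeg : Module.finrank K N = p)
    (P : Ideal (𝓞 N)) [P.IsPrime] (hP : P ≠ ⊥)
    (hin : ∀ (τ : N ≃ₐ[K] N) (z : 𝓞 N), τ • z - z ∈ P)
    (hres : ∀ z : 𝓞 N, ∃ c : 𝓞 K, z - algebraMap (𝓞 K) (𝓞 N) c ∈ P)
    (a b : 𝓞 N) (ha : a ∉ P) (hb : b ∉ P) :
    Algebra.intNorm (𝓞 K) (𝓞 N) a ∉ P.under (𝓞 K) ∧
    Algebra.intNorm (𝓞 K) (𝓞 N) b ∉ P.under (𝓞 K) ∧
    ∃ c : 𝓞 K, Algebra.intNorm (𝓞 K) (𝓞 N) a - c ^ p * Algebra.intNorm (𝓞 K) (𝓞 N) b ∈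
      P.under (𝓞 K) := by
  have hnot : ∀ z : 𝓞 N, z ∉ P → Algebra.intNorm (𝓞 K) (𝓞 N) z ∉ P.under (𝓞 K) := by
    intro z hz hmem
    rw [Ideal.under_def, Ideal.mem_comap, ← Ideal.Quotient.eq_zero_iff_mem,
      mk_algebraMap_intNorm_eq_pow hdeg P hin z, ← map_pow, Ideal.Quotient.eq_zero_iff_mem] at hmem
    exact hz (Ideal.IsPrime.mem_of_pow_mem inferInstance p hmem)
  refine ⟨hnot a ha, hnot b hb, ?_⟩
  have hmax : P.IsMaximal := Ring.DimensionLEOne.maximalOfPrime hP inferInstance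
  obtain ⟨y, i, hi, hyi⟩ := hmax.exists_inv hb
  obtain ⟨c, hc⟩ := hres (a * y)
  refine ⟨c, ?_⟩
  rw [Ideal.under_def, Ideal.mem_comap, ← Ideal.Quotient.eq_zero_iff_mem, map_sub, map_mul,
    map_pow, map_sub, map_mul, map_pow, mk_algebraMap_intNorm_eq_pow hdeg P hin a,
    mk_algebraMap_intNorm_eq_pow hdeg P hin b, ← mul_pow, sub_eq_zero]
  congr 1
  -- `a ≡ c * b mod P`
  have h1 : Ideal.Quotient.mk P (a * y) = Ideal.Quotient.mk P (algebraMap (𝓞 K) (𝓞 N) c) :=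
    Ideal.Quotient.eq.mpr hc
  have h2 : Ideal.Quotient.mk P (y * b) = 1 := by
    have : y * b - 1 ∈ P := by
      have : y * b - 1 = -i := by rw [← hyi]; ring
      rw [this]; exact neg_mem hi
    rw [← map_one (Ideal.Quotient.mk P)]
    exact Ideal.Quotient.eq.mpr this
  rw [← h1, ← map_mul, mul_assoc, map_mul, h2, mul_one]

end Fermat.Agent.S14.SI.FT
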