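/-
T14 / SI-FT piece G2: ramification indices: valuations of elements of `K` at primes of `N`;
primes above `R` are totally ramified, the others are unramified.
-/
import Fermat.Agent.S14.SI.FT.Setup
import Fermat.Agent.S14.SI.FT.Ramified

set_option autoImplicit false
set_option linter.unusedSectionVars false

open NumberField IsDedekindDomain
open scoped Pointwise

namespace Fermat.Agent.S14.SI.FT

variable {K N : Type*} [Field K] [NumberField K] [Field N] [NumberField N] [Algebra K N]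

/-- `P` lies over `P.under (𝓞 K)`. -/
lemma Ram.liesOver_under (P : HeightOneSpectrum (𝓞 N)) :
    P.asIdeal.LiesOver (P.under (𝓞 K)).asIdeal := ⟨rfl⟩

/-- (G2-a) -/
theorem eH_ne_zero (P : HeightOneSpectrum (𝓞 N)) : eH K P ≠ 0 := by
  have := Ram.liesOver_under (K := K) P
  exact Ideal.IsDedekindDomain.ramificationIdx'_ne_zero_of_liesOver P.asIdeal
    (P.under (𝓞 K)).ne_bot

/-- (G2-b) -/
theorem ordv_incl (P : HeightOneSpectrum (𝓞 N)) (x : Additive Kˣ) :
    ordv P (incl K N x).toMul = eH K P * ordv (P.under (𝓞 K)) x.toMul := by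
  have := Ram.liesOver_under (K := K) P
  have h := HeightOneSpectrum.valuation_liesOver (K := K) N (P.under (𝓞 K)) P
    ((x.toMul : Kˣ) : K)
  unfold ordv
  rw [coe_incl, ← h, WithZero.log_pow, eH]
  simp only [nsmul_eq_mul]
  ring

/-- (G2-c) `eH` is Mathlib's ramification index -/
theorem eH_eq_ramificationIdx (P : HeightOneSpectrum (𝓞 N)) :
    eH K P = P.asIdeal.ramificationIdx (𝓞 K) := by
  have := Ram.liesOver_under (K := K) P
  exact Ideal.ramificationIdx'_eq_ramificationIdx (P.under (𝓞 K)).asIdeal P.asIdeal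
    (P.under (𝓞 K)).ne_bot

/-- (G2-d) primes with trivial inertia group are unramified -/
theorem eH_eq_one_of_unramified [IsGalois K N] (P : HeightOneSpectrum (𝓞 N))
    (h : ∀ τ : N ≃ₐ[K] N, (∀ z : 𝓞 N, τ • z - z ∈ P.asIdeal) → τ = 1) : eH K P = 1 := by
  have := Ram.liesOver_under (K := K) P
  have hI : P.asIdeal.inertia (N ≃ₐ[K] N) = ⊥ := by
    rw [Subgroup.eq_bot_iff_forall]
    intro τ hτ
    exact h τ hτ
  rw [eH_eq_ramificationIdx,
    ← Ideal.ramificationIdxIn_eq_ramificationIdx (P.under (𝓞 K)).asIdeal P.asIdeal (N ≃ₐ[K] N),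
    ← Ideal.card_inertia_eq_ramificationIdxIn (G := N ≃ₐ[K] N) (P.under (𝓞 K)).asIdeal P.asIdeal,
    hI, Subgroup.card_bot]

/-- (G2-e) a prime with nontrivial inertia in a Galois extension of prime degree `p` is totally
ramified: it is the only prime above its restriction, it has `e = p`, the whole Galois group is its
inertia group, and its residue field is that of the prime below. -/
theorem totally_ramified [IsGalois K N] {p : ℕ} (hp : p.Prime) (hdeg : Module.finrank K N = p)
    (P : HeightOneSpectrum (𝓞 N))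
    (h : ∃ τ : N ≃ₐ[K] N, τ ≠ 1 ∧ ∀ z : 𝓞 N, τ • z - z ∈ P.asIdeal) :
    eH K P = p ∧
    (∀ Q : HeightOneSpectrum (𝓞 N), Q.under (𝓞 K) = P.under (𝓞 K) → Q = P) ∧
    (∀ (τ : N ≃ₐ[K] N) (z : 𝓞 N), τ • z - z ∈ P.asIdeal) ∧
    (∀ z : 𝓞 N, ∃ c : 𝓞 K, z - algebraMap (𝓞 K) (𝓞 N) c ∈ P.asIdeal) := by
  obtain ⟨τ, hτ1, hτ⟩ := h
  obtain ⟨h1, h2, h3, h4⟩ :=
    totally_ramified_of_inertia_ne_bot hp hdeg P.asIdeal P.ne_bot τ hτ1 hτ
  refine ⟨?_, ?_, h1, h3⟩
  · rw [eH_eq_ramificationIdx, h4]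
  · intro Q hQ
    have hQ' : Q.asIdeal.under (𝓞 K) = P.asIdeal.under (𝓞 K) := by
      have := congrArg HeightOneSpectrum.asIdeal hQ
      simpa using this
    exact HeightOneSpectrum.ext (h2 Q.asIdeal Q.isPrime hQ')

end Fermat.Agent.S14.SI.FT
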