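/-
T14 / SI-FT piece G4: the invariant divisors of `N` modulo the divisors coming from `K`.
-/
import Fermat.Agent.S14.SI.FT.GalAct
import Fermat.Agent.S14.SI.FT.Ram
import Fermat.Agent.S14.SI.FT.Fraction

set_option autoImplicit false

open NumberField IsDedekindDomain
open scoped Pointwise

namespace Fermat.Agent.S14.SI.FT

variable {K N : Type*} [Field K] [NumberField K] [Field N] [NumberField N] [Algebra K N]

/-- (G4-a) divisors coming from `K` are invariant -/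
theorem Jsub_le_ker (σ : N ≃ₐ[K] N) : Jsub K ≤ AddMonoidHom.ker (dlt (sigI (K := K) (N := N) σ)) := by
  rintro f ⟨g, hg⟩
  rw [AddMonoidHom.mem_ker, dlt_apply, sub_eq_zero]
  ext Q
  obtain ⟨P, rfl⟩ := smulH_surjective σ Q
  rw [sigI_apply_smulH, hg, hg, eH_smulH, under_smulH]

/-- an invariant divisor is invariant under the whole Galois group -/
lemma Index.sigI_eq_of_mem_ker [IsGalois K N] {p : ℕ} (hp : p.Prime)
    (hdeg : Module.finrank K N = p) (σ : N ≃ₐ[K] N) (hσ : σ ≠ 1)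
    (f : HeightOneSpectrum (𝓞 N) →₀ ℤ)
    (hf : f ∈ AddMonoidHom.ker (dlt (sigI (K := K) (N := N) σ))) (τ : N ≃ₐ[K] N) :
    sigI τ f = f := by
  rw [AddMonoidHom.mem_ker, dlt_apply, sub_eq_zero] at hf
  obtain ⟨i, -, rfl⟩ := exists_pow_eq hp hdeg σ hσ τ
  rw [← sigI_pow]
  induction i with
  | zero => simp
  | succ n ih =>
    rw [pow_succ]
    change (sigI σ ^ n) (sigI σ f) = f
    rw [hf, ih]

/-- an invariant divisor is constant on the primes above a given prime of `K` -/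
lemma Index.apply_eq_of_under_eq [IsGalois K N] {p : ℕ} (hp : p.Prime)
    (hdeg : Module.finrank K N = p) (σ : N ≃ₐ[K] N) (hσ : σ ≠ 1)
    (f : HeightOneSpectrum (𝓞 N) →₀ ℤ)
    (hf : f ∈ AddMonoidHom.ker (dlt (sigI (K := K) (N := N) σ)))
    (P Q : HeightOneSpectrum (𝓞 N)) (h : P.under (𝓞 K) = Q.under (𝓞 K)) : f P = f Q := by
  obtain ⟨τ, rfl⟩ := exists_smulH_eq P Q h
  have h1 := Index.sigI_eq_of_mem_ker hp hdeg σ hσ f hf τ
  conv_rhs => rw [← h1]
  rw [sigI_apply_smulH]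

/-- the primes above `R` have ramification index `p` -/
lemma Index.eH_eq_of_mem [IsGalois K N] {p : ℕ} (hp : p.Prime) (hdeg : Module.finrank K N = p)
    (R : Finset (HeightOneSpectrum (𝓞 K)))
    (hRram : ∀ v ∈ R, ∃ P : Ideal (𝓞 N), P.IsPrime ∧ P.under (𝓞 K) = v.asIdeal ∧
      ∃ τ : N ≃ₐ[K] N, τ ≠ 1 ∧ ∀ z : 𝓞 N, τ • z - z ∈ P)
    (P : HeightOneSpectrum (𝓞 N)) (hP : P.under (𝓞 K) ∈ R) : eH K P = p := by
  obtain ⟨P', hP', hu, τ, hτ, hz⟩ := hRram _ hP
  have hne : P' ≠ ⊥ := by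
    rintro rfl
    apply (P.under (𝓞 K)).ne_bot
    rw [← hu]
    exact Ideal.under_bot _ _
  set Q : HeightOneSpectrum (𝓞 N) := ⟨P', hP', hne⟩ with hQdef
  have hQ : Q.under (𝓞 K) = P.under (𝓞 K) := HeightOneSpectrum.ext (by simpa using hu)
  obtain ⟨he, huniq, -, -⟩ := totally_ramified hp hdeg Q ⟨τ, hτ, hz⟩
  have hPQ : P = Q := huniq P hQ.symm
  rw [hPQ]
  exact he

/-- the primes not above `R` are unramified -/
lemma Index.eH_eq_one_of_not_mem [IsGalois K N]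
    (R : Finset (HeightOneSpectrum (𝓞 K)))
    (hunr : ∀ P : Ideal (𝓞 N), P.IsPrime → P ≠ ⊥ → (∀ v ∈ R, P.under (𝓞 K) ≠ v.asIdeal) →
      ∀ τ : N ≃ₐ[K] N, (∀ z : 𝓞 N, τ • z - z ∈ P) → τ = 1)
    (P : HeightOneSpectrum (𝓞 N)) (hP : P.under (𝓞 K) ∉ R) : eH K P = 1 := by
  apply eH_eq_one_of_unramified
  intro τ hτ
  refine hunr P.asIdeal P.isPrime P.ne_bot ?_ τ hτ
  intro v hv h
  apply hP
  have hv' : P.under (𝓞 K) = v := HeightOneSpectrum.ext (by simpa using h)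
  rwa [hv']

/-- (G4-b) the index of the divisors coming from `K` in the invariant divisors divides `p ^ |R|` -/
theorem relIndex_Jsub_dvd [IsGalois K N] {p : ℕ} (hp : p.Prime) (hdeg : Module.finrank K N = p)
    (σ : N ≃ₐ[K] N) (hσ : σ ≠ 1)
    (R : Finset (HeightOneSpectrum (𝓞 K)))
    (hRram : ∀ v ∈ R, ∃ P : Ideal (𝓞 N), P.IsPrime ∧ P.under (𝓞 K) = v.asIdeal ∧
      ∃ τ : N ≃ₐ[K] N, τ ≠ 1 ∧ ∀ z : 𝓞 N, τ • z - z ∈ P)
    (hunr : ∀ P : Ideal (𝓞 N), P.IsPrime → P ≠ ⊥ → (∀ v ∈ R, P.under (𝓞 K) ≠ v.asIdeal) →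
      ∀ τ : N ≃ₐ[K] N, (∀ z : 𝓞 N, τ • z - z ∈ P) → τ = 1) :
    (Jsub K).relIndex (AddMonoidHom.ker (dlt (sigI (K := K) (N := N) σ))) ∣ p ^ R.card := by
  classical
  have : Fact p.Prime := ⟨hp⟩
  choose Pv hPv using (exists_under_eq (K := K) (N := N))
  set M := AddMonoidHom.ker (dlt (sigI (K := K) (N := N) σ)) with hM
  let φ : M →+ (R → ZMod p) :=
    { toFun := fun f v => (((f : HeightOneSpectrum (𝓞 N) →₀ ℤ) (Pv v) : ℤ) : ZMod p)
      map_zero' := by ext v; simp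
      map_add' := fun f g => by ext v; simp }
  have hφ : ∀ (f : M) (v : R), φ f v =
      (((f : HeightOneSpectrum (𝓞 N) →₀ ℤ) (Pv v) : ℤ) : ZMod p) := fun _ _ => rfl
  have hker : (Jsub K).addSubgroupOf M = φ.ker := by
    ext f
    rw [AddSubgroup.mem_addSubgroupOf, AddMonoidHom.mem_ker]
    constructor
    · rintro ⟨g, hg⟩
      ext v
      rw [hφ, hg, Index.eH_eq_of_mem hp hdeg R hRram (Pv v) (by rw [hPv]; exact v.2)]
      simp
    · intro hf
      have hdiv : ∀ v : R, (p : ℤ) ∣ (f : HeightOneSpectrum (𝓞 N) →₀ ℤ) (Pv v) := by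
        intro v
        have h1 := congrFun hf v
        rw [hφ] at h1
        exact (ZMod.intCast_zmod_eq_zero_iff_dvd _ _).mp h1
      refine ⟨fun v => if hv : v ∈ R then (f : HeightOneSpectrum (𝓞 N) →₀ ℤ) (Pv v) / p
        else (f : HeightOneSpectrum (𝓞 N) →₀ ℤ) (Pv v), fun P => ?_⟩
      have hPeq : (f : HeightOneSpectrum (𝓞 N) →₀ ℤ) P =
          (f : HeightOneSpectrum (𝓞 N) →₀ ℤ) (Pv (P.under (𝓞 K))) :=
        Index.apply_eq_of_under_eq hp hdeg σ hσ f f.2 P _ (hPv _).symm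
      beta_reduce
      by_cases hv : P.under (𝓞 K) ∈ R
      · rw [dif_pos hv, Index.eH_eq_of_mem hp hdeg R hRram P hv, hPeq]
        exact (Int.mul_ediv_cancel' (hdiv ⟨_, hv⟩)).symm
      · rw [dif_neg hv, Index.eH_eq_one_of_not_mem R hunr P hv, hPeq]
        simp
  rw [AddSubgroup.relIndex, hker, AddSubgroup.index_ker]
  have h1 : Nat.card φ.range ∣ Nat.card (R → ZMod p) := AddSubgroup.card_addSubgroup_dvd_card _
  have h2 : Nat.card (R → ZMod p) = p ^ R.card := by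
    rw [Nat.card_fun, Nat.card_zmod, Nat.card_eq_fintype_card, Fintype.card_coe]
  rw [← h2]
  exact h1

/-- (G4-c) divisors coming from `K` are divisors prime to `R` up to principal divisors from `K` -/
theorem Jsub_le_sup (σ : N ≃ₐ[K] N) (R : Finset (HeightOneSpectrum (𝓞 K))) :
    Jsub K ≤ JRsub (N := N) R ⊔ (AddMonoidHom.ker (dlt (sigL (K := K) (N := N) σ))).map (dv N) := by
  rintro f ⟨g, hg⟩
  obtain ⟨x, hx⟩ := exists_valuation_eq R (fun v => -(g v))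
  have hord : ∀ v ∈ R, ordv v x = g v := fun v hv => (ordv_eq_iff v x (g v)).mpr (hx v hv)
  have hfix : incl K N (Additive.ofMul x) ∈
      AddMonoidHom.ker (dlt (sigL (K := K) (N := N) σ)) := by
    rw [AddMonoidHom.mem_ker, dlt_apply, sigL_incl, sub_self]
  have hsplit : f = (f - dv N (incl K N (Additive.ofMul x))) +
      dv N (incl K N (Additive.ofMul x)) := by abel
  rw [hsplit]
  refine AddSubgroup.add_mem_sup ?_ (AddSubgroup.mem_map_of_mem _ hfix)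
  refine ⟨fun v => g v - ordv v x, fun v hv => by simp [hord v hv], fun P => ?_⟩
  rw [Finsupp.sub_apply, dv_apply, ordv_incl, hg, mul_sub]
  rfl

/-- (G4-d) divisors of fixed elements come from `K` -/
theorem map_ker_le_Jsub [IsGalois K N] {p : ℕ} (hp : p.Prime) (hdeg : Module.finrank K N = p)
    (σ : N ≃ₐ[K] N) (hσ : σ ≠ 1) :
    (AddMonoidHom.ker (dlt (sigL (K := K) (N := N) σ))).map (dv N) ≤ Jsub K := by
  rintro _ ⟨x, hx, rfl⟩
  rw [SetLike.mem_coe, AddMonoidHom.mem_ker, dlt_apply, sub_eq_zero] at hx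
  obtain ⟨y, rfl⟩ := mem_range_incl_of_fixed hp hdeg σ hσ x hx
  exact ⟨fun v => ordv v y.toMul, fun P => by rw [dv_apply, ordv_incl]⟩

end Fermat.Agent.S14.SI.FT
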