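/-
T14 / SI-FT piece G7: the divisor of the relative norm of an ideal is the norm of its divisor.
-/
import Fermat.Agent.S14.SI.FT.GalAct
import Fermat.Agent.S14.SI.FT.Ram

set_option autoImplicit false

open NumberField IsDedekindDomain
open scoped Pointwise nonZeroDivisors

namespace Fermat.Agent.S14.SI.FT

variable {K N : Type*} [Field K] [NumberField K] [Field N] [NumberField N] [Algebra K N]

/-- the decomposition group has order `e f` -/
lemma NormDiv.card_stabilizer [IsGalois K N] (Q : HeightOneSpectrum (𝓞 N)) :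
    Nat.card (MulAction.stabilizer (N ≃ₐ[K] N) Q.asIdeal) =
      eH K Q * Q.asIdeal.inertiaDeg (𝓞 K) := by
  have := Ram.liesOver_under (K := K) Q
  rw [eH_eq_ramificationIdx,
    ← Ideal.ramificationIdxIn_eq_ramificationIdx (Q.under (𝓞 K)).asIdeal Q.asIdeal (N ≃ₐ[K] N),
    ← Ideal.inertiaDegIn_eq_inertiaDeg (Q.under (𝓞 K)).asIdeal Q.asIdeal (N ≃ₐ[K] N)]
  exact Ideal.card_stabilizer_eq (G := N ≃ₐ[K] N) (Q.under (𝓞 K)).asIdeal Q.asIdeal

/-- the relative norm of a prime -/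
lemma NormDiv.relNorm_prime (Q : HeightOneSpectrum (𝓞 N)) :
    Ideal.relNorm (𝓞 K) Q.asIdeal = (Q.under (𝓞 K)).asIdeal ^ Q.asIdeal.inertiaDeg (𝓞 K) := by
  have := Ram.liesOver_under (K := K) Q
  have : Q.asIdeal.IsMaximal := Q.isMaximal
  have : (Q.under (𝓞 K)).asIdeal.IsMaximal := (Q.under (𝓞 K)).isMaximal
  exact Ideal.relNorm_eq_pow_of_isMaximal Q.asIdeal (Q.under (𝓞 K)).asIdeal

/-- a nontrivial element of the Galois group has order `p` -/
lemma NormDiv.orderOf_eq [IsGalois K N] {p : ℕ} (hp : p.Prime) (hdeg : Module.finrank K N = p)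
    (σ : N ≃ₐ[K] N) (hσ : σ ≠ 1) : orderOf σ = p := by
  have : Fact p.Prime := ⟨hp⟩
  refine orderOf_eq_prime ?_ hσ
  rw [← hdeg, ← IsGalois.card_aut_eq_finrank K N]
  exact pow_card_eq_one'

/-- the number of `i < p` with `σ ^ i • Q = τ₀ • Q` is the order of the decomposition group -/
lemma NormDiv.card_filter_range [IsGalois K N] {p : ℕ} (hp : p.Prime)
    (hdeg : Module.finrank K N = p) (σ : N ≃ₐ[K] N) (hσ : σ ≠ 1)
    (Q : HeightOneSpectrum (𝓞 N)) (τ₀ : N ≃ₐ[K] N)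
    [DecidablePred fun i : ℕ => smulH (σ ^ i) Q = smulH τ₀ Q] :
    ((Finset.range p).filter (fun i => smulH (σ ^ i) Q = smulH τ₀ Q)).card =
      Nat.card (MulAction.stabilizer (N ≃ₐ[K] N) Q.asIdeal) := by
  rw [← Nat.card_eq_finsetCard]
  have hord := NormDiv.orderOf_eq hp hdeg σ hσ
  have hmem : ∀ i : ((Finset.range p).filter (fun i => smulH (σ ^ i) Q = smulH τ₀ Q)),
      τ₀⁻¹ * σ ^ (i : ℕ) ∈ MulAction.stabilizer (N ≃ₐ[K] N) Q.asIdeal := by
    rintro ⟨i, hi⟩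
    rw [Finset.mem_filter] at hi
    rw [MulAction.mem_stabilizer_iff, mul_smul]
    have h1 := congrArg HeightOneSpectrum.asIdeal hi.2
    rw [smulH_asIdeal, smulH_asIdeal] at h1
    rw [h1, inv_smul_smul]
  refine Nat.card_congr (Equiv.ofBijective (fun i => ⟨τ₀⁻¹ * σ ^ (i : ℕ), hmem i⟩) ⟨?_, ?_⟩)
  · rintro ⟨i, hi⟩ ⟨j, hj⟩ hij
    rw [Finset.mem_filter, Finset.mem_range] at hi hj
    have h1 : σ ^ i = σ ^ j := by
      have := congrArg Subtype.val hij
      exact mul_left_cancel this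
    have h2 : i = j := by
      apply pow_injOn_Iio_orderOf (x := σ)
      · rw [hord]; exact hi.1
      · rw [hord]; exact hj.1
      · exact h1
    exact Subtype.ext h2
  · rintro ⟨s, hs⟩
    obtain ⟨i, hi, hiτ⟩ := exists_pow_eq hp hdeg σ hσ (τ₀ * s)
    rw [MulAction.mem_stabilizer_iff] at hs
    refine ⟨⟨i, ?_⟩, ?_⟩
    · rw [Finset.mem_filter, Finset.mem_range]
      refine ⟨hi, ?_⟩
      rw [hiτ]
      ext1
      rw [smulH_asIdeal, smulH_asIdeal, mul_smul, hs]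
    · apply Subtype.ext
      change τ₀⁻¹ * σ ^ i = s
      rw [hiτ, inv_mul_cancel_left]

/-- (G7) for a prime -/
lemma NormDiv.nrm_single [IsGalois K N] {p : ℕ} (hp : p.Prime) (hdeg : Module.finrank K N = p)
    (σ : N ≃ₐ[K] N) (hσ : σ ≠ 1) (Q P : HeightOneSpectrum (𝓞 N)) :
    nrm p (sigI σ) (Finsupp.single Q 1) P = eH K P * FractionalIdeal.count K (P.under (𝓞 K))
      ((Ideal.relNorm (𝓞 K) Q.asIdeal : Ideal (𝓞 K)) : FractionalIdeal (𝓞 K)⁰ K) := by
  classical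
  rw [nrm_apply, Finsupp.finsetSum_apply]
  have h1 : ∀ i, (sigI σ ^ i) (Finsupp.single Q 1) P =
      if smulH (σ ^ i) Q = P then 1 else 0 := by
    intro i
    rw [sigI_pow, sigI_single, Finsupp.single_apply]
  simp only [h1]
  rw [Finset.sum_boole, NormDiv.relNorm_prime, FractionalIdeal.coeIdeal_pow,
    FractionalIdeal.count_pow, FractionalIdeal.count_maximal]
  by_cases h : Q.under (𝓞 K) = P.under (𝓞 K)
  · rw [if_pos h]
    obtain ⟨τ₀, rfl⟩ := exists_smulH_eq Q P h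
    rw [NormDiv.card_filter_range hp hdeg σ hσ Q τ₀, NormDiv.card_stabilizer, eH_smulH]
    push_cast
    ring
  · rw [if_neg h, Finset.filter_false_of_mem]
    · simp
    · intro i _ hi
      apply h
      rw [← hi, under_smulH]

/-- (G7) for a nonzero ideal `𝔄` of `𝓞 N` there is a divisor `h` of `N` (the divisor of `𝔄`) with
`(∑_{i<p} σ^i) h = conorm (divisor of N_{N/K} 𝔄)`. -/
theorem exists_nrm_eq_relNorm [IsGalois K N] {p : ℕ} (hp : p.Prime) (hdeg : Module.finrank K N = p)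
    (σ : N ≃ₐ[K] N) (hσ : σ ≠ 1) (𝔄 : Ideal (𝓞 N)) (h𝔄 : 𝔄 ≠ ⊥) :
    ∃ h : HeightOneSpectrum (𝓞 N) →₀ ℤ, ∀ P : HeightOneSpectrum (𝓞 N),
      nrm p (sigI σ) h P = eH K P * FractionalIdeal.count K (P.under (𝓞 K))
        ((Ideal.relNorm (𝓞 K) 𝔄 : Ideal (𝓞 K)) : FractionalIdeal (𝓞 K)⁰ K) := by
  revert h𝔄
  refine UniqueFactorizationMonoid.induction_on_prime 𝔄 ?_ ?_ ?_
  · intro h
    exact absurd rfl h
  · intro I hI _
    rw [Ideal.isUnit_iff] at hI
    subst hI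
    refine ⟨0, fun P => ?_⟩
    rw [map_zero, Ideal.relNorm_top, FractionalIdeal.coeIdeal_top, FractionalIdeal.count_one]
    simp
  · intro I Q hI hQ ih _
    obtain ⟨h', hh'⟩ := ih hI
    have hQ' : Q.IsPrime := Ideal.isPrime_of_prime hQ
    have hQne : Q ≠ ⊥ := hQ.ne_zero
    set Qh : HeightOneSpectrum (𝓞 N) := ⟨Q, hQ', hQne⟩ with hQh
    refine ⟨Finsupp.single Qh 1 + h', fun P => ?_⟩
    have n1 : ((Ideal.relNorm (𝓞 K) Q : Ideal (𝓞 K)) : FractionalIdeal (𝓞 K)⁰ K) ≠ 0 := by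
      rw [Ne, FractionalIdeal.coeIdeal_eq_zero, Ideal.relNorm_eq_bot_iff]
      exact hQne
    have n2 : ((Ideal.relNorm (𝓞 K) I : Ideal (𝓞 K)) : FractionalIdeal (𝓞 K)⁰ K) ≠ 0 := by
      rw [Ne, FractionalIdeal.coeIdeal_eq_zero, Ideal.relNorm_eq_bot_iff]
      exact hI
    rw [map_add, Finsupp.add_apply, NormDiv.nrm_single hp hdeg σ hσ Qh P, hh' P, map_mul,
      FractionalIdeal.coeIdeal_mul, FractionalIdeal.count_mul _ _ n1 n2, mul_add]

end Fermat.Agent.S14.SI.FT
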