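/-
T14 / SI-FT sub-piece (P2): the `p`-th power residue subgroup at a finite set `R` of primes
(prime to `p`) has index `p ^ |R|` in the group of `R`-units of `Kˣ`.
Statements as posted by helper8 (board 816).  Mathlib only.
-/
import Mathlib

set_option autoImplicit false
set_option linter.unusedSectionVars false
set_option linter.unusedVariables false

open NumberField IsDedekindDomain

namespace Fermat.Agent.S14.SI.FT

variable {K : Type*} [Field K] [NumberField K]

/-- The elements of `Kˣ` which are units at every `v ∈ R`. -/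
def unitsAt (R : Finset (HeightOneSpectrum (𝓞 K))) : Subgroup Kˣ where
  carrier := {x | ∀ v ∈ R, v.valuation K (x : K) = 1}
  mul_mem' := by
    intro a b ha hb v hv
    simp only [Units.val_mul, map_mul, ha v hv, hb v hv, mul_one]
  one_mem' := by
    intro v _
    simp
  inv_mem' := by
    intro a ha v hv
    simp only [Units.val_inv_eq_inv_val, map_inv₀, ha v hv, inv_one]

theorem mem_unitsAt {R : Finset (HeightOneSpectrum (𝓞 K))} {x : Kˣ} :
    x ∈ unitsAt R ↔ ∀ v ∈ R, v.valuation K (x : K) = 1 := Iff.rfl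

/-- `x` is a unit at `v` and a `p`-th power residue modulo `v`. -/
def IsPowResAt (p : ℕ) (v : HeightOneSpectrum (𝓞 K)) (x : Kˣ) : Prop :=
  ∃ a b z : 𝓞 K, a ∉ v.asIdeal ∧ b ∉ v.asIdeal ∧ (x : K) * (b : K) = (a : K) ∧
    a - z ^ p * b ∈ v.asIdeal

theorem IsPowResAt.valuation_eq_one {p : ℕ} {v : HeightOneSpectrum (𝓞 K)} {x : Kˣ}
    (h : IsPowResAt p v x) : v.valuation K (x : K) = 1 := by
  obtain ⟨a, b, z, ha, hb, hab, -⟩ := h
  have h1 : v.valuation K (x : K) * v.valuation K (algebraMap (𝓞 K) K b) =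
      v.valuation K (algebraMap (𝓞 K) K a) := by
    rw [← map_mul]; exact congrArg _ hab
  rw [(v.valuation_eq_one_iff_notMem (K := K)).mpr ha,
    (v.valuation_eq_one_iff_notMem (K := K)).mpr hb, mul_one] at h1
  exact h1

/-- independence of the fraction. -/
theorem IsPowResAt.of_fraction {p : ℕ} {v : HeightOneSpectrum (𝓞 K)} {x : Kˣ}
    (h : IsPowResAt p v x) (a b : 𝓞 K) (ha : a ∉ v.asIdeal)
    (hb : b ∉ v.asIdeal) (hab : (x : K) * (b : K) = (a : K)) :
    ∃ z : 𝓞 K, a - z ^ p * b ∈ v.asIdeal := by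
  obtain ⟨a₀, b₀, z₀, ha₀, hb₀, hab₀, hz₀⟩ := h
  refine ⟨z₀, ?_⟩
  have hcross : a₀ * b = a * b₀ := by
    apply RingOfIntegers.coe_injective
    push_cast
    linear_combination (-(b : K)) * hab₀ + (b₀ : K) * hab
  have hmem : b₀ * (a - z₀ ^ p * b) ∈ v.asIdeal := by
    have : b₀ * (a - z₀ ^ p * b) = b * (a₀ - z₀ ^ p * b₀) := by
      linear_combination -hcross
    rw [this]
    exact Ideal.mul_mem_left _ _ hz₀
  exact (v.isPrime.mem_or_mem hmem).resolve_left hb₀


theorem isPowResAt_one (p : ℕ) (v : HeightOneSpectrum (𝓞 K)) : IsPowResAt p v (1 : Kˣ) := by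
  have h1 : (1 : 𝓞 K) ∉ v.asIdeal := fun h => v.isPrime.ne_top ((Ideal.eq_top_iff_one _).mpr h)
  exact ⟨1, 1, 1, h1, h1, by simp, by simp⟩

theorem IsPowResAt.mul {p : ℕ} {v : HeightOneSpectrum (𝓞 K)} {x y : Kˣ}
    (hx : IsPowResAt p v x) (hy : IsPowResAt p v y) : IsPowResAt p v (x * y) := by
  obtain ⟨a, b, z, ha, hb, hab, hz⟩ := hx
  obtain ⟨a', b', z', ha', hb', hab', hz'⟩ := hy
  refine ⟨a * a', b * b', z * z', ?_, ?_, ?_, ?_⟩
  · exact fun h => (v.isPrime.mem_or_mem h).elim ha ha'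
  · exact fun h => (v.isPrime.mem_or_mem h).elim hb hb'
  · push_cast
    linear_combination (x : K) * (b : K) * hab' + (a' : K) * hab
  · have : a * a' - (z * z') ^ p * (b * b') =
        a * (a' - z' ^ p * b') + z' ^ p * b' * (a - z ^ p * b) := by ring
    rw [this]
    exact Ideal.add_mem _ (Ideal.mul_mem_left _ _ hz') (Ideal.mul_mem_left _ _ hz)

theorem IsPowResAt.inv {p : ℕ} {v : HeightOneSpectrum (𝓞 K)} {x : Kˣ}
    (hx : IsPowResAt p v x) : IsPowResAt p v x⁻¹ := by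
  obtain ⟨a, b, z, ha, hb, hab, hz⟩ := hx
  have hinv : ((x⁻¹ : Kˣ) : K) * (a : K) = (b : K) := by
    rw [← hab, Units.val_inv_eq_inv_val]
    field_simp
  rcases Nat.eq_zero_or_pos p with rfl | hp
  · refine ⟨b, a, 1, hb, ha, hinv, ?_⟩
    have : b - 1 ^ 0 * a = -(a - z ^ 0 * b) := by ring
    rw [this]
    exact Ideal.neg_mem_iff _ |>.mpr hz
  -- `z ∉ v`
  have hzv : z ∉ v.asIdeal := by
    intro hzv
    apply ha
    have : a = (a - z ^ p * b) + z ^ p * b := by ring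
    rw [this]
    exact Ideal.add_mem _ hz (Ideal.mul_mem_right _ _ (Ideal.pow_mem_of_mem _ hzv p hp))
  obtain ⟨w, i, hi, hw⟩ := v.isMaximal.exists_inv hzv
  refine ⟨b, a, w, hb, ha, hinv, ?_⟩
  rw [← Ideal.Quotient.eq_zero_iff_mem]
  have h1 : Ideal.Quotient.mk v.asIdeal a =
      Ideal.Quotient.mk v.asIdeal z ^ p * Ideal.Quotient.mk v.asIdeal b := by
    rw [← map_pow, ← map_mul]
    exact Ideal.Quotient.eq.mpr hz
  have h2 : Ideal.Quotient.mk v.asIdeal w * Ideal.Quotient.mk v.asIdeal z = 1 := by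
    have := congrArg (Ideal.Quotient.mk v.asIdeal) hw
    rw [map_add, map_mul, Ideal.Quotient.eq_zero_iff_mem.mpr hi, add_zero, map_one] at this
    exact this
  rw [map_sub, map_mul, map_pow, h1, ← mul_assoc, ← mul_pow, h2, one_pow, one_mul, sub_self]

/-- The elements of `Kˣ` which are `p`-th power residues (and units) at every `v ∈ R`. -/
def powResAt (p : ℕ) (R : Finset (HeightOneSpectrum (𝓞 K))) : Subgroup Kˣ where
  carrier := {x | ∀ v ∈ R, IsPowResAt p v x}
  mul_mem' := fun ha hb v hv => (ha v hv).mul (hb v hv)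
  one_mem' := fun v _ => isPowResAt_one p v
  inv_mem' := fun ha v hv => (ha v hv).inv

theorem mem_powResAt {p : ℕ} {R : Finset (HeightOneSpectrum (𝓞 K))} {x : Kˣ} :
    x ∈ powResAt p R ↔ ∀ v ∈ R, IsPowResAt p v x := Iff.rfl

theorem powResAt_le_unitsAt (p : ℕ) (R : Finset (HeightOneSpectrum (𝓞 K))) :
    powResAt p R ≤ unitsAt R :=
  fun _ hx v hv => (hx v hv).valuation_eq_one


/-! ### The residue map at `v` -/

section Residue

theorem isMaximal_asIdeal (v : HeightOneSpectrum (𝓞 K)) : v.asIdeal.IsMaximal := v.isMaximal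

attribute [local instance] isMaximal_asIdeal
attribute [local instance] Ideal.Quotient.field

theorem finite_quot (v : HeightOneSpectrum (𝓞 K)) : Finite (𝓞 K ⧸ v.asIdeal) :=
  Ideal.finiteQuotientOfFreeOfNeBot v.asIdeal v.ne_bot

attribute [local instance] finite_quot

variable (v : HeightOneSpectrum (𝓞 K))

theorem mk_ne_zero_of_notMem {d : 𝓞 K} (hd : d ∉ v.asIdeal) :
    Ideal.Quotient.mk v.asIdeal d ≠ 0 :=
  fun h => hd (Ideal.Quotient.eq_zero_iff_mem.mp h)

/-- the residue of `x` at `v` (junk `0` if `x` is not `v`-integral). -/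
noncomputable def resAt (x : K) : 𝓞 K ⧸ v.asIdeal :=
  if h : v.valuation K x ≤ 1 then
    Ideal.Quotient.mk v.asIdeal (v.exists_primeCompl_mul_eq_of_integer x h).choose /
      Ideal.Quotient.mk v.asIdeal
        ((v.exists_primeCompl_mul_eq_of_integer x h).choose_spec.choose : 𝓞 K)
  else 0

theorem valuation_le_one_of_fraction {x : K} {n d : 𝓞 K} (hd : d ∉ v.asIdeal)
    (h : x * (d : K) = (n : K)) : v.valuation K x ≤ 1 := by
  have h1 : v.valuation K x * v.valuation K (algebraMap (𝓞 K) K d) =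
      v.valuation K (algebraMap (𝓞 K) K n) := by
    rw [← map_mul]; exact congrArg _ h
  rw [(v.valuation_eq_one_iff_notMem (K := K)).mpr hd, mul_one] at h1
  rw [h1]
  exact v.valuation_le_one n

theorem resAt_eq {x : K} {n d : 𝓞 K} (hd : d ∉ v.asIdeal) (h : x * (d : K) = (n : K)) :
    resAt v x = Ideal.Quotient.mk v.asIdeal n / Ideal.Quotient.mk v.asIdeal d := by
  have hx : v.valuation K x ≤ 1 := valuation_le_one_of_fraction v hd h
  rw [resAt, dif_pos hx]
  set n₀ := (v.exists_primeCompl_mul_eq_of_integer x hx).choose with hn₀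
  set d₀ := (v.exists_primeCompl_mul_eq_of_integer x hx).choose_spec.choose with hd₀
  have h₀ : x * algebraMap (𝓞 K) K (d₀ : 𝓞 K) = algebraMap (𝓞 K) K n₀ :=
    (v.exists_primeCompl_mul_eq_of_integer x hx).choose_spec.choose_spec
  have hd₀' : (d₀ : 𝓞 K) ∉ v.asIdeal := d₀.2
  have hcross : n₀ * d = n * (d₀ : 𝓞 K) := by
    apply RingOfIntegers.coe_injective
    push_cast
    have h₀' : x * ((d₀ : 𝓞 K) : K) = (n₀ : K) := h₀
    linear_combination (-(d : K)) * h₀' + ((d₀ : 𝓞 K) : K) * h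
  rw [div_eq_div_iff (mk_ne_zero_of_notMem v hd₀') (mk_ne_zero_of_notMem v hd), ← map_mul,
    ← map_mul, hcross]

theorem resAt_mul {x y : K} {n d n' d' : 𝓞 K} (hd : d ∉ v.asIdeal) (h : x * (d : K) = (n : K))
    (hd' : d' ∉ v.asIdeal) (h' : y * (d' : K) = (n' : K)) :
    resAt v (x * y) = resAt v x * resAt v y := by
  have hdd : d * d' ∉ v.asIdeal := fun hm => (v.isPrime.mem_or_mem hm).elim hd hd'
  have hxy : x * y * ((d * d' : 𝓞 K) : K) = ((n * n' : 𝓞 K) : K) := by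
    push_cast
    linear_combination (y * (d' : K)) * h + (n : K) * h'
  rw [resAt_eq v hdd hxy, resAt_eq v hd h, resAt_eq v hd' h', map_mul, map_mul, mul_div_mul_comm]

/-- fractions for units at `v`. -/
theorem exists_fraction_of_valuation_eq_one {x : K} (hx : v.valuation K x = 1) :
    ∃ n d : 𝓞 K, n ∉ v.asIdeal ∧ d ∉ v.asIdeal ∧ x * (d : K) = (n : K) := by
  obtain ⟨n, d, hnd⟩ := v.exists_primeCompl_mul_eq_of_integer x hx.le
  refine ⟨n, d, ?_, d.2, hnd⟩
  rw [← v.valuation_eq_one_iff_notMem (K := K), ← hnd, map_mul, hx, one_mul]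
  exact (v.valuation_eq_one_iff_notMem (K := K)).mpr d.2

theorem resAt_ne_zero {x : K} (hx : v.valuation K x = 1) : resAt v x ≠ 0 := by
  obtain ⟨n, d, hn, hd, h⟩ := exists_fraction_of_valuation_eq_one v hx
  rw [resAt_eq v hd h]
  exact div_ne_zero (mk_ne_zero_of_notMem v hn) (mk_ne_zero_of_notMem v hd)

theorem resAt_algebraMap (a : 𝓞 K) : resAt v (a : K) = Ideal.Quotient.mk v.asIdeal a := by
  have h1 : (1 : 𝓞 K) ∉ v.asIdeal := fun h => v.isPrime.ne_top ((Ideal.eq_top_iff_one _).mpr h)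
  rw [resAt_eq v h1 (n := a) (by simp), map_one, div_one]


/-- the residue homomorphism on `R`-units. -/
noncomputable def resHom (R : Finset (HeightOneSpectrum (𝓞 K))) (v : ↥R) :
    ↥(unitsAt R) →* (𝓞 K ⧸ v.1.asIdeal)ˣ :=
  MonoidHom.mk' (fun x => Units.mk0 (resAt v.1 ((x : Kˣ) : K)) (resAt_ne_zero v.1 (x.2 v.1 v.2)))
    (by
      intro x y
      ext
      obtain ⟨n, d, -, hd, h⟩ := exists_fraction_of_valuation_eq_one v.1 (x.2 v.1 v.2)
      obtain ⟨n', d', -, hd', h'⟩ := exists_fraction_of_valuation_eq_one v.1 (y.2 v.1 v.2)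
      simp only [Subgroup.coe_mul, Units.val_mul, Units.val_mk0]
      exact resAt_mul v.1 hd h hd' h')

theorem coe_resHom (R : Finset (HeightOneSpectrum (𝓞 K))) (v : ↥R) (x : ↥(unitsAt R)) :
    ((resHom R v x : (𝓞 K ⧸ v.1.asIdeal)ˣ) : 𝓞 K ⧸ v.1.asIdeal) = resAt v.1 ((x : Kˣ) : K) := rfl

/-- `IsPowResAt` in terms of the residue. -/
theorem isPowResAt_iff_resAt {p : ℕ} {x : Kˣ} (hx : v.valuation K (x : K) = 1) :
    IsPowResAt p v x ↔ ∃ u : (𝓞 K ⧸ v.asIdeal)ˣ, (u : 𝓞 K ⧸ v.asIdeal) ^ p = resAt v (x : K) := by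
  constructor
  · rintro ⟨a, b, z, ha, hb, hab, hz⟩
    have hres : resAt v (x : K) = Ideal.Quotient.mk v.asIdeal z ^ p := by
      rw [resAt_eq v hb hab, div_eq_iff (mk_ne_zero_of_notMem v hb), ← map_pow, ← map_mul]
      exact Ideal.Quotient.eq.mpr hz
    rcases Nat.eq_zero_or_pos p with rfl | hp
    · exact ⟨1, by rw [hres, pow_zero, pow_zero]⟩
    have hz0 : Ideal.Quotient.mk v.asIdeal z ≠ 0 := by
      intro h0
      rw [h0, zero_pow hp.ne'] at hres
      exact resAt_ne_zero v hx hres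
    exact ⟨Units.mk0 _ hz0, by rw [Units.val_mk0, hres]⟩
  · rintro ⟨u, hu⟩
    obtain ⟨n, d, hn, hd, h⟩ := exists_fraction_of_valuation_eq_one v hx
    obtain ⟨z, hz⟩ := Ideal.Quotient.mk_surjective (u : 𝓞 K ⧸ v.asIdeal)
    refine ⟨n, d, z, hn, hd, h, ?_⟩
    rw [← Ideal.Quotient.eq, map_mul, map_pow, hz, hu, resAt_eq v hd h,
      div_mul_cancel₀ _ (mk_ne_zero_of_notMem v hd)]


/-- `1 - ξ` divides `p` for a primitive `p`-th root of unity `ξ` in a domain. -/
theorem one_sub_dvd_natCast {A : Type*} [CommRing A] [IsDomain A] {p : ℕ} (hp : p.Prime) {ξ : A}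
    (hξ : IsPrimitiveRoot ξ p) : (1 - ξ) ∣ (p : A) := by
  obtain ⟨n, rfl⟩ : ∃ n, p = n + 1 := ⟨p - 1, (Nat.succ_pred_eq_of_pos hp.pos).symm⟩
  have h := hξ.prod_one_sub_pow_eq_order
  have hn : 0 < n := by
    have := hp.two_le
    omega
  have hdvd : (1 - ξ ^ (0 + 1)) ∣ ∏ k ∈ Finset.range n, (1 - ξ ^ (k + 1)) :=
    Finset.dvd_prod_of_mem _ (Finset.mem_range.mpr hn)
  rw [h] at hdvd
  simpa using hdvd

/-- `p` divides the order of the multiplicative group of the residue field at `v ∤ p`. -/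
theorem dvd_card_units_quot {p : ℕ} (hp : p.Prime) (ζ : K) (hζ : IsPrimitiveRoot ζ p)
    (hvp : (p : 𝓞 K) ∉ v.asIdeal) : p ∣ Nat.card (𝓞 K ⧸ v.asIdeal)ˣ := by
  have hζint : IsIntegral ℤ ζ := hζ.isIntegral hp.pos
  let ζi : 𝓞 K := ⟨ζ, hζint⟩
  have hζi : IsPrimitiveRoot ζi p :=
    IsPrimitiveRoot.of_map_of_injective (f := algebraMap (𝓞 K) K) hζ RingOfIntegers.coe_injective
  -- the image of `ζ` in the residue field
  have hne1 : Ideal.Quotient.mk v.asIdeal ζi ≠ 1 := by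
    intro h1
    have hmem : 1 - ζi ∈ v.asIdeal := by
      rw [← Ideal.Quotient.eq_zero_iff_mem, map_sub, map_one, h1, sub_self]
    obtain ⟨c, hc⟩ := one_sub_dvd_natCast hp hζi
    exact hvp (hc ▸ Ideal.mul_mem_right _ _ hmem)
  have hpow : Ideal.Quotient.mk v.asIdeal ζi ^ p = 1 := by
    rw [← map_pow, hζi.pow_eq_one, map_one]
  have hne0 : Ideal.Quotient.mk v.asIdeal ζi ≠ 0 := by
    intro h0
    rw [h0, zero_pow hp.ne_zero] at hpow
    exact zero_ne_one hpow
  let u : (𝓞 K ⧸ v.asIdeal)ˣ := Units.mk0 _ hne0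
  have hup : u ^ p = 1 := by
    ext
    simpa [u] using hpow
  have hu1 : u ≠ 1 := by
    intro h
    apply hne1
    have := congrArg Units.val h
    simpa [u] using this
  have : Fact p.Prime := ⟨hp⟩
  have hord : orderOf u = p := orderOf_eq_prime hup hu1
  rw [← hord]
  exact orderOf_dvd_natCard u

theorem card_quot_powMonoidHom_range {p : ℕ} (hp : p.Prime) (ζ : K) (hζ : IsPrimitiveRoot ζ p)
    (hvp : (p : 𝓞 K) ∉ v.asIdeal) :
    Nat.card ((𝓞 K ⧸ v.asIdeal)ˣ ⧸ (powMonoidHom p : (𝓞 K ⧸ v.asIdeal)ˣ →* _).range) = p := by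
  rw [← Subgroup.index_eq_card, IsCyclic.index_powMonoidHom_range]
  exact Nat.gcd_eq_right (dvd_card_units_quot v hp ζ hζ hvp)


/-- the product of the residue symbols. -/
noncomputable def symbHom (p : ℕ) (R : Finset (HeightOneSpectrum (𝓞 K))) :
    ↥(unitsAt R) →* ((v : ↥R) →
      (𝓞 K ⧸ v.1.asIdeal)ˣ ⧸ (powMonoidHom p : (𝓞 K ⧸ v.1.asIdeal)ˣ →* _).range) :=
  MonoidHom.pi fun v => (QuotientGroup.mk' _).comp (resHom R v)

theorem symbHom_apply (p : ℕ) (R : Finset (HeightOneSpectrum (𝓞 K))) (x : ↥(unitsAt R))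
    (v : ↥R) : symbHom p R x v = QuotientGroup.mk (resHom R v x) := rfl

theorem ker_symbHom (p : ℕ) (R : Finset (HeightOneSpectrum (𝓞 K))) :
    (symbHom p R).ker = (powResAt p R).subgroupOf (unitsAt R) := by
  ext x
  rw [MonoidHom.mem_ker, Subgroup.mem_subgroupOf, mem_powResAt]
  constructor
  · intro h v hv
    have hv' := congrFun h ⟨v, hv⟩
    rw [symbHom_apply, Pi.one_apply, QuotientGroup.eq_one_iff] at hv'
    obtain ⟨u, hu⟩ := hv'
    rw [isPowResAt_iff_resAt v (x.2 v hv)]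
    refine ⟨u, ?_⟩
    have := congrArg Units.val hu
    rw [powMonoidHom_apply, Units.val_pow_eq_pow_val] at this
    rw [this]
    rfl
  · intro h
    funext v
    rw [symbHom_apply, Pi.one_apply, QuotientGroup.eq_one_iff]
    obtain ⟨u, hu⟩ := (isPowResAt_iff_resAt v.1 (x.2 v.1 v.2)).mp (h v.1 v.2)
    refine ⟨u, ?_⟩
    ext
    rw [powMonoidHom_apply, Units.val_pow_eq_pow_val, hu]
    rfl

theorem symbHom_surjective (p : ℕ) (R : Finset (HeightOneSpectrum (𝓞 K))) :
    Function.Surjective (symbHom p R) := by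
  classical
  intro c
  -- representatives in `𝓞 K`
  have hrep : ∀ v : ↥R, ∃ z : 𝓞 K, ∃ hz : Ideal.Quotient.mk v.1.asIdeal z ≠ 0,
      c v = QuotientGroup.mk (Units.mk0 _ hz) := by
    intro v
    obtain ⟨u, hu⟩ := QuotientGroup.mk_surjective (c v)
    obtain ⟨z, hz⟩ := Ideal.Quotient.mk_surjective (u : 𝓞 K ⧸ v.1.asIdeal)
    refine ⟨z, by rw [hz]; exact u.ne_zero, ?_⟩
    rw [← hu]
    congr 1
    ext
    simp [hz]
  choose z hz0 hz using hrep
  obtain ⟨y, hy⟩ := IsDedekindDomain.exists_forall_sub_mem_ideal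
    (fun v : HeightOneSpectrum (𝓞 K) => v.asIdeal) (fun _ => 1) (s := R)
    (fun v _ => v.prime) (fun v _ w _ hvw h => hvw (HeightOneSpectrum.ext h)) z
  by_cases hR : R = ∅
  · subst hR
    refine ⟨1, ?_⟩
    funext v
    exact absurd v.2 (Finset.notMem_empty _)
  obtain ⟨v₀, hv₀⟩ := Finset.nonempty_iff_ne_empty.mpr hR
  -- `y` is a unit at every `v ∈ R`
  have hyv : ∀ v : ↥R, Ideal.Quotient.mk v.1.asIdeal y = Ideal.Quotient.mk v.1.asIdeal (z v) := by
    intro v
    have := hy v.1 v.2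
    rw [pow_one] at this
    exact Ideal.Quotient.eq.mpr this
  have hynot : ∀ v : ↥R, y ∉ v.1.asIdeal := by
    intro v hmem
    apply hz0 v
    rw [← hyv v]
    exact Ideal.Quotient.eq_zero_iff_mem.mpr hmem
  have hy0 : (y : K) ≠ 0 := by
    intro h0
    have : y = 0 := RingOfIntegers.coe_injective (by rw [map_zero]; exact h0)
    exact hynot ⟨v₀, hv₀⟩ (this ▸ Ideal.zero_mem _)
  let x : Kˣ := Units.mk0 (y : K) hy0
  have hxU : x ∈ unitsAt R := by
    intro v hv
    exact (v.valuation_eq_one_iff_notMem (K := K)).mpr (hynot ⟨v, hv⟩)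
  refine ⟨⟨x, hxU⟩, ?_⟩
  funext v
  rw [symbHom_apply, hz v]
  congr 1
  ext
  rw [coe_resHom, Units.val_mk0]
  show resAt v.1 (y : K) = _
  rw [resAt_algebraMap, hyv v]
  rfl

/-- **(FT-P2)** the `p`-th power residues at `R` have index `p ^ |R|` in the `R`-units. -/
theorem relIndex_powResAt {p : ℕ} (hp : p.Prime) (ζ : K) (hζ : IsPrimitiveRoot ζ p)
    (R : Finset (HeightOneSpectrum (𝓞 K))) (hRp : ∀ v ∈ R, (p : 𝓞 K) ∉ v.asIdeal) :
    (powResAt p R).relIndex (unitsAt R) = p ^ R.card := by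
  classical
  rw [Subgroup.relIndex, ← ker_symbHom, Subgroup.index_ker,
    MonoidHom.range_eq_top.mpr (symbHom_surjective p R), Subgroup.card_top, Nat.card_pi]
  rw [Finset.prod_congr rfl (fun v _ => card_quot_powMonoidHom_range v.1 hp ζ hζ (hRp v.1 v.2)),
    Finset.prod_const, Finset.card_univ, Fintype.card_coe]

end Residue

end Fermat.Agent.S14.SI.FT
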