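/-
T14 / SI-FT pieces G5 + G6: the group `K''` of elements of `Kˣ` that are units and `p`-th power
residues at `R`, inside `Nˣ`; its index; norms prime to `R` lie in it.
-/
import Fermat.Agent.S14.SI.FT.GalAct
import Fermat.Agent.S14.SI.FT.Ram
import Fermat.Agent.S14.SI.FT.PowRes
import Fermat.Agent.S14.SI.FT.Fraction
import Fermat.Agent.S14.SI.FT.Ramified

set_option autoImplicit false

open NumberField IsDedekindDomain
open scoped Pointwise

namespace Fermat.Agent.S14.SI.FT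

variable {K N : Type*} [Field K] [NumberField K] [Field N] [NumberField N] [Algebra K N]

/-- the image in `Additive Nˣ` of the units of `K` at `R` which are `p`-th power residues at `R` -/
noncomputable def Kpp (N : Type*) {K : Type*} [Field K] [NumberField K] [Field N] [NumberField N]
    [Algebra K N] (p : ℕ) (R : Finset (HeightOneSpectrum (𝓞 K))) : AddSubgroup (Additive Nˣ) :=
  (Subgroup.toAddSubgroup (powResAt p R)).map (incl K N)


/-- membership in `Kpp` -/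
lemma Res.mem_Kpp_iff {p : ℕ} {R : Finset (HeightOneSpectrum (𝓞 K))} {x : Additive Nˣ} :
    x ∈ Kpp N p R ↔ ∃ y : Kˣ, y ∈ powResAt p R ∧ incl K N (Additive.ofMul y) = x := by
  unfold Kpp
  rw [AddSubgroup.mem_map]
  constructor
  · rintro ⟨y, hy, rfl⟩
    exact ⟨y.toMul, hy, rfl⟩
  · rintro ⟨y, hy, rfl⟩
    exact ⟨Additive.ofMul y, hy, rfl⟩

/-- the image of the `R`-units of `K` is fixed by the Galois group and has divisor prime to `R` -/
lemma Res.incl_mem_of_mem_unitsAt (σ : N ≃ₐ[K] N) {R : Finset (HeightOneSpectrum (𝓞 K))} {y : Kˣ}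
    (hy : y ∈ unitsAt R) :
    incl K N (Additive.ofMul y) ∈
      AddMonoidHom.ker (dlt (sigL (K := K) (N := N) σ)) ⊓ (JRsub (N := N) R).comap (dv N) := by
  refine AddSubgroup.mem_inf.mpr ⟨?_, ?_⟩
  · rw [AddMonoidHom.mem_ker, dlt_apply, sigL_incl, sub_self]
  · rw [AddSubgroup.mem_comap]
    refine ⟨fun v => ordv v y, ?_, ?_⟩
    · intro v hv
      exact (ordv_eq_zero_iff v y).mpr (hy v hv)
    · intro P
      rw [dv_apply, ordv_incl]
      rfl

/-- conversely -/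
lemma Res.exists_of_mem [IsGalois K N] {p : ℕ} (hp : p.Prime) (hdeg : Module.finrank K N = p)
    (σ : N ≃ₐ[K] N) (hσ : σ ≠ 1) {R : Finset (HeightOneSpectrum (𝓞 K))} {x : Additive Nˣ}
    (hx : x ∈ AddMonoidHom.ker (dlt (sigL (K := K) (N := N) σ)) ⊓
      (JRsub (N := N) R).comap (dv N)) :
    ∃ y : Kˣ, y ∈ unitsAt R ∧ incl K N (Additive.ofMul y) = x := by
  obtain ⟨h1, h2⟩ := AddSubgroup.mem_inf.mp hx
  rw [AddMonoidHom.mem_ker, dlt_apply, sub_eq_zero] at h1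
  obtain ⟨y, rfl⟩ := mem_range_incl_of_fixed hp hdeg σ hσ x h1
  refine ⟨y.toMul, ?_, rfl⟩
  rw [AddSubgroup.mem_comap] at h2
  obtain ⟨g, hg0, hg⟩ := h2
  intro v hv
  obtain ⟨P, hP⟩ := exists_under_eq (N := N) v
  have h3 := hg P
  rw [dv_apply, ordv_incl, hP, hg0 v hv, mul_zero] at h3
  have h4 : ordv v y.toMul = 0 := by
    rcases mul_eq_zero.mp h3 with h | h
    · exact absurd (by exact_mod_cast h) (eH_ne_zero (K := K) P)
    · exact h
  exact (ordv_eq_zero_iff v y.toMul).mp h4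

/-- the additive norm `∑ σ^i` on `Nˣ` is the field norm followed by the inclusion of `Kˣ` -/
lemma Res.nrm_eq_incl_norm [IsGalois K N] {p : ℕ} (hp : p.Prime)
    (hdeg : Module.finrank K N = p) (σ : N ≃ₐ[K] N) (hσ : σ ≠ 1) (z : Additive Nˣ) :
    nrm p (sigL σ) z =
      incl K N (Additive.ofMul (Units.map (Algebra.norm K : N →* K) z.toMul)) := by
  classical
  apply Additive.toMul.injective
  apply Units.ext
  rw [coe_incl]
  change ((nrm p (sigL σ) z).toMul : N) = algebraMap K N (Algebra.norm K ((z.toMul : Nˣ) : N))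
  rw [Algebra.norm_eq_prod_automorphisms, nrm_apply, toMul_sum, Units.coe_prod]
  have himg : (Finset.range p).image (fun i => σ ^ i) = (Finset.univ : Finset (N ≃ₐ[K] N)) := by
    ext τ
    simp only [Finset.mem_image, Finset.mem_range, Finset.mem_univ, iff_true]
    obtain ⟨i, hi, h⟩ := exists_pow_eq hp hdeg σ hσ τ
    exact ⟨i, hi, h⟩
  have hinj : Set.InjOn (fun i => σ ^ i) (Finset.range p : Set ℕ) := by
    apply Finset.card_image_iff.mp
    rw [himg, Finset.card_univ, Finset.card_range, ← Nat.card_eq_fintype_card,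
      IsGalois.card_aut_eq_finrank, hdeg]
  rw [← himg, Finset.prod_image hinj]
  refine Finset.prod_congr rfl fun i _ => ?_
  rw [sigL_pow, coe_sigL]

/-- at a prime fixed by the Galois group the divisor of a norm is `p` times the divisor -/
lemma Res.dv_nrm_apply_of_fixed {p : ℕ} (σ : N ≃ₐ[K] N) (P : HeightOneSpectrum (𝓞 N))
    (hfix : ∀ τ : N ≃ₐ[K] N, smulH τ P = P) (z : Additive Nˣ) :
    dv N (nrm p (sigL σ) z) P = p * ordv P z.toMul := by
  rw [nrm_apply, map_sum, Finsupp.finsetSum_apply]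
  have : ∀ i ∈ Finset.range p, dv N ((sigL σ ^ i) z) P = ordv P z.toMul := by
    intro i _
    rw [sigL_pow, dv_sigL]
    conv_lhs => rw [← hfix (σ ^ i)]
    rw [sigI_apply_smulH, dv_apply]
  rw [Finset.sum_congr rfl this, Finset.sum_const, Finset.card_range, nsmul_eq_mul]

/-- (G5-a) -/
theorem Kpp_le (σ : N ≃ₐ[K] N) (p : ℕ) (R : Finset (HeightOneSpectrum (𝓞 K))) :
    Kpp N p R ≤ AddMonoidHom.ker (dlt (sigL (K := K) (N := N) σ)) ⊓ (JRsub (N := N) R).comap (dv N) := by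
  intro x hx
  obtain ⟨y, hy, rfl⟩ := Res.mem_Kpp_iff.mp hx
  exact Res.incl_mem_of_mem_unitsAt σ (powResAt_le_unitsAt p R hy)

/-- (G5-b) -/
theorem relIndex_Kpp [IsGalois K N] {p : ℕ} (hp : p.Prime) (hdeg : Module.finrank K N = p)
    (ζ : K) (hζ : IsPrimitiveRoot ζ p) (σ : N ≃ₐ[K] N) (hσ : σ ≠ 1)
    (R : Finset (HeightOneSpectrum (𝓞 K))) (hRp : ∀ v ∈ R, (p : 𝓞 K) ∉ v.asIdeal) :
    (Kpp N p R).relIndex
      (AddMonoidHom.ker (dlt (sigL (K := K) (N := N) σ)) ⊓ (JRsub (N := N) R).comap (dv N)) =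
      p ^ R.card := by
  have hM : AddMonoidHom.ker (dlt (sigL (K := K) (N := N) σ)) ⊓ (JRsub (N := N) R).comap (dv N)
      = (Subgroup.toAddSubgroup (unitsAt R)).map (incl K N) := by
    ext x
    rw [AddSubgroup.mem_map]
    constructor
    · intro hx
      obtain ⟨y, hy, rfl⟩ := Res.exists_of_mem hp hdeg σ hσ hx
      exact ⟨Additive.ofMul y, hy, rfl⟩
    · rintro ⟨y, hy, rfl⟩
      exact Res.incl_mem_of_mem_unitsAt σ (y := y.toMul) hy
  rw [hM, Kpp, AddSubgroup.relIndex_map_map_of_injective _ _ incl_injective]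
  exact relIndex_powResAt hp ζ hζ R hRp

/-- (G6) norms whose divisor is prime to `R` are `p`-th power residues at `R` -/
theorem nrm_mem_Kpp [IsGalois K N] {p : ℕ} (hp : p.Prime) (hdeg : Module.finrank K N = p)
    (σ : N ≃ₐ[K] N) (hσ : σ ≠ 1)
    (R : Finset (HeightOneSpectrum (𝓞 K)))
    (hRram : ∀ v ∈ R, ∃ P : Ideal (𝓞 N), P.IsPrime ∧ P.under (𝓞 K) = v.asIdeal ∧
      ∃ τ : N ≃ₐ[K] N, τ ≠ 1 ∧ ∀ z : 𝓞 N, τ • z - z ∈ P)
    (z : Additive Nˣ) (hz : dv N (nrm p (sigL σ) z) ∈ JRsub (N := N) R) :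
    nrm p (sigL σ) z ∈ Kpp N p R := by
  classical
  rw [Res.nrm_eq_incl_norm hp hdeg σ hσ z, Res.mem_Kpp_iff]
  refine ⟨_, ?_, rfl⟩
  rw [mem_powResAt]
  intro v hv
  obtain ⟨P, hPprime, hPv, τ, hτ1, hτ⟩ := hRram v hv
  have hPbot : P ≠ ⊥ := by
    rintro rfl
    apply v.ne_bot
    rw [← hPv]
    exact Ideal.comap_bot_of_injective _ (FaithfulSMul.algebraMap_injective (𝓞 K) (𝓞 N))
  let PH : HeightOneSpectrum (𝓞 N) := ⟨P, hPprime, hPbot⟩
  have hPHv : PH.under (𝓞 K) = v := HeightOneSpectrum.ext hPv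
  obtain ⟨-, huniq, hin, hres⟩ := totally_ramified hp hdeg PH ⟨τ, hτ1, hτ⟩
  have hfix : ∀ τ' : N ≃ₐ[K] N, smulH τ' PH = PH := fun τ' =>
    huniq _ (under_smulH τ' PH)
  -- `z` is a unit at `P`
  have hord : ordv PH z.toMul = 0 := by
    obtain ⟨g, hg0, hg⟩ := hz
    have h1 := hg PH
    rw [Res.dv_nrm_apply_of_fixed σ PH hfix z, hPHv, hg0 v hv, mul_zero] at h1
    rcases mul_eq_zero.mp h1 with h | h
    · exact absurd (by exact_mod_cast h) hp.ne_zero
    · exact h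
  have hval : ∀ Q ∈ ({PH} : Finset (HeightOneSpectrum (𝓞 N))),
      Q.valuation N ((z.toMul : Nˣ) : N) = 1 := by
    intro Q hQ
    rw [Finset.mem_singleton] at hQ
    rw [hQ]
    exact (ordv_eq_zero_iff PH z.toMul).mp hord
  obtain ⟨α, β, hαβ, hcop⟩ := exists_coprime_fraction {PH} z.toMul hval
  obtain ⟨hα, hβ⟩ := hcop PH (Finset.mem_singleton_self _)
  obtain ⟨ha, hb, c, hc⟩ := intNorm_sub_pow_mul_mem hp hdeg P hPbot hin hres α β hα hβ
  rw [hPv] at ha hb hc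
  refine ⟨Algebra.intNorm (𝓞 K) (𝓞 N) α, Algebra.intNorm (𝓞 K) (𝓞 N) β, c, ha, hb, ?_, hc⟩
  have h1 : ((Algebra.intNorm (𝓞 K) (𝓞 N) α : 𝓞 K) : K) = Algebra.norm K ((α : 𝓞 N) : N) :=
    Algebra.algebraMap_intNorm (A := 𝓞 K) (K := K) (L := N) (B := 𝓞 N) α
  have h2 : ((Algebra.intNorm (𝓞 K) (𝓞 N) β : 𝓞 K) : K) = Algebra.norm K ((β : 𝓞 N) : N) :=
    Algebra.algebraMap_intNorm (A := 𝓞 K) (K := K) (L := N) (B := 𝓞 N) β
  rw [h1, h2, ← hαβ, map_mul]
  rfl

end Fermat.Agent.S14.SI.FT
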