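/-
T14 / SI-FT: final assembly of the first inequality with a tame modulus from the pieces
`FT/{Abstract,Divisor,GalAct,Ram,Coh,Index,Res,NormDiv}.lean`.
-/
import Fermat.Agent.S14.SI.FT.Coh
import Fermat.Agent.S14.SI.FT.Index
import Fermat.Agent.S14.SI.FT.Res
import Fermat.Agent.S14.SI.FT.NormDiv

set_option autoImplicit false

open NumberField IsDedekindDomain
open scoped Pointwise nonZeroDivisors

namespace Fermat.Agent.S14.SI.FT

variable {K N : Type*} [Field K] [NumberField K] [Field N] [NumberField N] [Algebra K N]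

/-- the subgroup of divisors of `N` which the first inequality shows to be proper in `JRsub R` -/
noncomputable def Tsub (N : Type*) {K : Type*} [Field K] [NumberField K] [Field N] [NumberField N]
    [Algebra K N] (p : ℕ) (R : Finset (HeightOneSpectrum (𝓞 K))) (σ : N ≃ₐ[K] N) :
    AddSubgroup (HeightOneSpectrum (𝓞 N) →₀ ℤ) :=
  (Kpp N p R).map (dv N) ⊔ AddMonoidHom.range (nrm p (sigI σ))

lemma count_span_singleton (w : HeightOneSpectrum (𝓞 K)) (y : 𝓞 K) (hy : y ≠ 0) :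
    FractionalIdeal.count K w ((Ideal.span {y} : Ideal (𝓞 K)) : FractionalIdeal (𝓞 K)⁰ K) =
      ordv w (Units.mk0 (y : K) (by simpa using hy)) := by
  rw [ordv_eq_count, FractionalIdeal.coeIdeal_span_singleton]
  rfl

open scoped Classical in
/-- a prime `v ∉ R` of the form `(y₁/y₂) N(𝔄)` gives an element of `Tsub` -/
theorem prime_mem_Tsub [IsGalois K N] {p : ℕ} (hp : p.Prime) (hdeg : Module.finrank K N = p)
    (σ : N ≃ₐ[K] N) (hσ : σ ≠ 1) (R : Finset (HeightOneSpectrum (𝓞 K)))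
    (v : HeightOneSpectrum (𝓞 K)) (y₁ y₂ : 𝓞 K) (𝔄 : Ideal (𝓞 N)) (hy₁ : y₁ ≠ 0) (hy₂ : y₂ ≠ 0)
    (h𝔄 : 𝔄 ≠ ⊥)
    (hres : ∀ w ∈ R, y₁ ∉ w.asIdeal ∧ y₂ ∉ w.asIdeal ∧ ∃ z : 𝓞 K, y₁ - z ^ p * y₂ ∈ w.asIdeal)
    (heq : Ideal.span {y₂} * v.asIdeal = Ideal.span {y₁} * Ideal.relNorm (𝓞 K) 𝔄) :
    ∃ t ∈ Tsub N p R σ, ∀ P : HeightOneSpectrum (𝓞 N),
      t P = if P.under (𝓞 K) = v then (eH K P : ℤ) else 0 := by
  classical
  have hy₁' : (y₁ : K) ≠ 0 := by simpa using hy₁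
  have hy₂' : (y₂ : K) ≠ 0 := by simpa using hy₂
  set u₁ : Kˣ := Units.mk0 (y₁ : K) hy₁' with hu₁
  set u₂ : Kˣ := Units.mk0 (y₂ : K) hy₂' with hu₂
  set x : Kˣ := u₁ / u₂ with hx
  have hxy : (x : K) * (y₂ : K) = (y₁ : K) := by
    rw [hx, Units.val_div_eq_div_val, hu₁, hu₂, Units.val_mk0, Units.val_mk0,
      div_mul_cancel₀ _ hy₂']
  have hxmem : x ∈ powResAt p R := by
    rw [mem_powResAt]
    intro w hw
    obtain ⟨h1, h2, z, hz⟩ := hres w hw
    exact ⟨y₁, y₂, z, h1, h2, hxy, hz⟩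
  obtain ⟨h, hh⟩ := exists_nrm_eq_relNorm hp hdeg σ hσ 𝔄 h𝔄
  refine ⟨dv N (incl K N (Additive.ofMul x)) + nrm p (sigI σ) h, ?_, ?_⟩
  · refine AddSubgroup.add_mem _ (AddSubgroup.mem_sup_left ?_) (AddSubgroup.mem_sup_right ⟨h, rfl⟩)
    exact ⟨incl K N (Additive.ofMul x), ⟨Additive.ofMul x, hxmem, rfl⟩, rfl⟩
  · intro P
    set w := P.under (𝓞 K) with hw
    have hN0 : Ideal.relNorm (𝓞 K) 𝔄 ≠ ⊥ := by
      rw [Ne, Ideal.relNorm_eq_bot_iff]
      exact h𝔄
    have hc := congrArg (fun I : Ideal (𝓞 K) =>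
      FractionalIdeal.count K w (I : FractionalIdeal (𝓞 K)⁰ K)) heq
    simp only [FractionalIdeal.coeIdeal_mul] at hc
    have n1 : ((Ideal.span {y₂} : Ideal (𝓞 K)) : FractionalIdeal (𝓞 K)⁰ K) ≠ 0 := by
      rw [Ne, FractionalIdeal.coeIdeal_eq_zero, Ideal.span_singleton_eq_bot]
      exact hy₂
    have n2 : ((v.asIdeal : Ideal (𝓞 K)) : FractionalIdeal (𝓞 K)⁰ K) ≠ 0 := by
      rw [Ne, FractionalIdeal.coeIdeal_eq_zero]
      exact v.ne_bot
    have n3 : ((Ideal.span {y₁} : Ideal (𝓞 K)) : FractionalIdeal (𝓞 K)⁰ K) ≠ 0 := by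
      rw [Ne, FractionalIdeal.coeIdeal_eq_zero, Ideal.span_singleton_eq_bot]
      exact hy₁
    have n4 : ((Ideal.relNorm (𝓞 K) 𝔄 : Ideal (𝓞 K)) : FractionalIdeal (𝓞 K)⁰ K) ≠ 0 := by
      rw [Ne, FractionalIdeal.coeIdeal_eq_zero]
      exact hN0
    rw [FractionalIdeal.count_mul K w n1 n2, FractionalIdeal.count_mul K w n3 n4,
      count_span_singleton w y₂ hy₂, count_span_singleton w y₁ hy₁,
      FractionalIdeal.count_maximal] at hc
    rw [Finsupp.add_apply, dv_apply, ordv_incl, hh P, ← hw, ← mul_add]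
    have hxo : ordv w (Additive.ofMul x).toMul = ordv w u₁ - ordv w u₂ := by
      change ordv w x = _
      rw [hx, div_eq_mul_inv, ordv_mul, ordv_inv]
      ring
    rw [hxo]
    have hc' : ordv w u₁ - ordv w u₂ + FractionalIdeal.count K w
        ((Ideal.relNorm (𝓞 K) 𝔄 : Ideal (𝓞 K)) : FractionalIdeal (𝓞 K)⁰ K) =
        if v = w then 1 else 0 := by
      rw [← hu₁, ← hu₂] at hc
      linarith
    rw [hc']
    by_cases hvw : w = v
    · rw [if_pos hvw, if_pos hvw.symm, mul_one]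
    · rw [if_neg hvw, if_neg (fun h => hvw h.symm), mul_zero]

open scoped Classical in
/-- if every prime `v ∉ R` gives an element of `Tsub`, then `JRsub R ≤ Tsub` -/
theorem JRsub_le_Tsub {p : ℕ} (σ : N ≃ₐ[K] N) (R : Finset (HeightOneSpectrum (𝓞 K)))
    (hall : ∀ v : HeightOneSpectrum (𝓞 K), v ∉ R → ∃ t ∈ Tsub N p R σ,
      ∀ P : HeightOneSpectrum (𝓞 N), t P = if P.under (𝓞 K) = v then (eH K P : ℤ) else 0) :
    JRsub (N := N) R ≤ Tsub N p R σ := by
  classical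
  rintro f ⟨g, hgR, hf⟩
  let tfun : HeightOneSpectrum (𝓞 K) → (HeightOneSpectrum (𝓞 N) →₀ ℤ) := fun v =>
    if hv : v ∈ R then 0 else Classical.choose (hall v hv)
  have htT : ∀ v, tfun v ∈ Tsub N p R σ := by
    intro v
    by_cases hv : v ∈ R
    · simp only [tfun, dif_pos hv]
      exact zero_mem _
    · simp only [tfun, dif_neg hv]
      exact (Classical.choose_spec (hall v hv)).1
  have htv : ∀ v (P : HeightOneSpectrum (𝓞 N)),
      g v * tfun v P = if P.under (𝓞 K) = v then g v * (eH K P : ℤ) else 0 := by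
    intro v P
    by_cases hv : v ∈ R
    · simp [hgR v hv]
    · simp only [tfun, dif_neg hv]
      rw [(Classical.choose_spec (hall v hv)).2 P]
      split_ifs <;> simp
  set S := f.support.image (fun P => P.under (𝓞 K)) with hS
  have hsum : f = ∑ v ∈ S, g v • tfun v := by
    ext P
    rw [Finsupp.finset_sum_apply]
    simp only [Finsupp.smul_apply, smul_eq_mul, htv]
    rw [Finset.sum_ite_eq]
    by_cases hPS : P.under (𝓞 K) ∈ S
    · rw [if_pos hPS, hf P, mul_comm]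
    · rw [if_neg hPS]
      by_contra hne
      apply hPS
      rw [hS, Finset.mem_image]
      exact ⟨P, Finsupp.mem_support_iff.mpr hne, rfl⟩
  rw [hsum]
  exact AddSubgroup.sum_mem _ (fun v _ => AddSubgroup.zsmul_mem _ (htT v) _)

end Fermat.Agent.S14.SI.FT
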